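import Fermat.Agent.S56.GW.H92_FinGlob
import Fermat.Agent.Lib.H25_HermiteMinkowski

set_option autoImplicit false

/-!
# Cluster T / S56, package GW-FIN-glob: DONE

`stmt_fin_glob : Stmt_fin_glob`, from `fin_glob_of_HM` (`GW/H92_FinGlob.lean`) and
Hermite–Minkowski (`Fermat.Agent.Lib.H25HM.stmt_HM`, helper25).
-/

namespace Fermat.Agent.S56.H92

/-- Hermite–Minkowski in the form used by `fin_glob_of_HM`. -/
theorem hmInput : HMInput := Fermat.Agent.Lib.H25HM.stmt_HM

/-- **Package GW-FIN-glob.** -/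
theorem stmt_fin_glob : Stmt_fin_glob := fin_glob_of_HM hmInput

end Fermat.Agent.S56.H92
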