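import Fermat.Agent.S56.GW.Defs2
import Fermat.Agent.S56.H13_LocInf
import Fermat.Agent.S56.TWS.H27_Tr

set_option autoImplicit false

/-!
# Cluster T / S56, package GW-LB-c (helper27): `Stmt_ARCH`

Complex conjugation `c` acts on `M` as an involution `A`; on `M' = M*(1)` it acts by
`φ ↦ -φ ∘ A` (the cyclotomic character of `c` is `-1`).  So the invariants of `M'` are the
annihilator of `ker (A - 1)`, and `h⁰(ℝ, M) + h⁰(ℝ, M') = dim M`.
-/

noncomputable section

namespace Fermat.Agent.S56.H27

open Polynomial IsLocalRing CategoryTheory groupCohomology ExtCitation Module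
open Fermat.Agent.S56 Fermat.Agent.S56.TWS.H27

section Cyclo

variable (p : ℕ) [Fact p.Prime]

/-- The cyclotomic character of complex conjugation is `-1`. -/
theorem cycloK_complexConjugation (k : Type) [Field k] [CharP k p] :
    (cycloK p k complexConjugation : k) = -1 := by
  have hp : p.Prime := Fact.out
  have : NeZero p := ⟨hp.ne_zero⟩
  have : NeZero (p : AlgebraicClosure ℚ) := ⟨Nat.cast_ne_zero.mpr hp.ne_zero⟩
  obtain ⟨ζ₀, hζ⟩ : ∃ ζ₀ : AlgebraicClosure ℚ, IsPrimitiveRoot ζ₀ p :=
    HasEnoughRootsOfUnity.exists_primitiveRoot (AlgebraicClosure ℚ) p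
  rw [cycloK_val]
  have h1 : ζ₀ ^ (cycloExp p complexConjugation) = ζ₀ ^ (p - 1) := by
    rw [← map_root_eq_pow p complexConjugation ζ₀ hζ.pow_eq_one]
    exact H13.complexConjugation_root p hp.pos ζ₀ hζ.pow_eq_one
  have h2 : cycloExp p complexConjugation ≡ p - 1 [MOD p] := by
    obtain ⟨u, hu⟩ := hζ.isUnit hp.ne_zero
    have hu' : IsPrimitiveRoot u p := by
      rw [← IsPrimitiveRoot.coe_units_iff, hu]; exact hζ
    rw [← hu, ← Units.val_pow_eq_pow_val, ← Units.val_pow_eq_pow_val, Units.val_inj,
      pow_eq_pow_iff_modEq, ← hu'.eq_orderOf] at h1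
    exact h1
  rw [(CharP.natCast_eq_natCast k p).mpr h2, Nat.cast_sub hp.one_le, CharP.cast_eq_zero k p]
  simp

end Cyclo

section Arch

variable {k : Type} [Field k]

/-- The invariants of `Rep.res archimedeanLoc M` are the fixed vectors of complex conjugation. -/
theorem mem_invariants_arch (M : Rep.{0} k GQ) (m : M) :
    m ∈ (Rep.res archimedeanLoc M).ρ.invariants ↔ M.ρ complexConjugation m = m := by
  rw [Representation.mem_invariants]
  constructor
  · intro h
    exact h archimedeanGen
  · intro h g
    rcases H13.archimedean_cases g with rfl | rfl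
    · show M.ρ (archimedeanLoc 1) m = m
      rw [map_one, map_one]
      rfl
    · exact h

/-- Linear algebra: for an involution `A` (characteristic `≠ 2`), a functional `φ` with
`φ ∘ A = -φ` is the same as a functional vanishing on the fixed vectors of `A`. -/
theorem anti_iff_annihilates {V : Type*} [AddCommGroup V] [Module k V] (h2 : (2 : k) ≠ 0)
    (A : V →ₗ[k] V) (hA : ∀ v, A (A v) = v) (φ : Module.Dual k V) :
    (∀ v, φ (A v) = - φ v) ↔ ∀ v, A v = v → φ v = 0 := by
  constructor
  · intro h v hv
    have h1 := h v
    rw [hv] at h1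
    have h3 : (2 : k) * φ v = 0 := by linear_combination h1
    rcases mul_eq_zero.mp h3 with h4 | h4
    · exact absurd h4 h2
    · exact h4
  · intro h v
    have h1 := h (A v + v) (by rw [map_add, hA, add_comm])
    rw [map_add] at h1
    linear_combination h1

/-- **GW-LB-c.** -/
theorem stmt_ARCH : Stmt_ARCH := by
  intro p _ hp2 k _ _ _ M _
  have h2 : (2 : k) ≠ 0 := H13.two_ne_zero_of p hp2 (CharP.cast_eq_zero k p)
  have hAA : ∀ v : M, M.ρ complexConjugation (M.ρ complexConjugation v) = v := by
    intro v
    rw [← Module.End.mul_apply, ← map_mul, complexConjugation_mul_self, map_one]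
    rfl
  let W0 : Submodule k M := LinearMap.ker (M.ρ complexConjugation - 1)
  have hW0 : ∀ m : M, m ∈ W0 ↔ M.ρ complexConjugation m = m := by
    intro m
    simp only [W0, LinearMap.mem_ker, LinearMap.sub_apply, Module.End.one_apply, sub_eq_zero]
  have e1 : finrank k (Rep.res archimedeanLoc M).ρ.invariants = finrank k W0 := by
    have h : (Rep.res archimedeanLoc M).ρ.invariants = W0 := by
      ext m
      rw [mem_invariants_arch]
      exact (hW0 m).symm
    rw [h]
  have e2 : finrank k (Rep.res archimedeanLoc (tateDual p M)).ρ.invariants =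
      finrank k W0.dualAnnihilator := by
    have h : (Rep.res archimedeanLoc (tateDual p M)).ρ.invariants = W0.dualAnnihilator := by
      ext φ
      rw [mem_invariants_arch, Submodule.mem_dualAnnihilator, Rep.dualTwist_ρ_apply,
        cycloK_complexConjugation, complexConjugation_inv]
      have key := anti_iff_annihilates h2 (M.ρ complexConjugation) hAA
        (show Module.Dual k M from φ)
      constructor
      · intro h w hw
        refine key.mp (fun v => ?_) w ((hW0 w).mp hw)
        have h1 := congrArg (fun ψ : Module.Dual k M => ψ v) h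
        simp only [LinearMap.smul_apply, LinearMap.comp_apply, smul_eq_mul] at h1
        linear_combination -h1
      · intro h
        have h3 := key.mpr (fun v hv => h v ((hW0 v).mpr hv))
        apply LinearMap.ext
        intro v
        simp only [LinearMap.smul_apply, LinearMap.comp_apply, smul_eq_mul]
        rw [h3 v]
        ring
    rw [h]
  rw [e1, e2]
  exact Subspace.finrank_add_finrank_dualAnnihilator_eq W0

end Arch

end Fermat.Agent.S56.H27

end
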