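import Fermat.Agent.S56.GW.H9_PerfLoc

/-!
# S56, package GW-PERF: roots of unity, Frobenius and the Kummer character (helper9)

* `root_rigid'`        : roots of unity of order prime to the residue characteristic which are
                         congruent are equal.
* `rq_fix_root`        : for `q ≡ 1 mod p` the local Galois group at `q` fixes the `p`-th roots of
                         unity; `cycloK_rq_eq_one`.
* `dvd_of_pow_mem_inertiaF` : if the level contains the roots of unity of order `q ^ t - 1`, the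
                         order of any generator of `G_q` modulo inertia is divisible by `t`.
* `kummerQ`            : the Kummer character of `q ^ (1/p)`, additive and ramified.
-/

set_option autoImplicit false
set_option linter.unusedSectionVars false
set_option linter.style.haveILetI false

namespace Fermat.Agent.S56.H9

open NumberField CategoryTheory groupCohomology ExtCitation
open Fermat.Agent.Lib.LocalKummer

local notation "Qbar" => AlgebraicClosure ℚ

open Fermat.Agent.Lib.Minkowski in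
attribute [local instance] qbar_isAlgebraic qbar_isAlgClosure qbar_isGalois qbar_normal

section rigid

variable {L : Type*} [Field L] (A : ValuationSubring L)

/-- A root of unity of order `n`, `n` a unit of `A`, congruent to `1`, is `1`. -/
theorem root_rigid {n : ℕ} (hn : A.valuation (n : L) = 1) {u : L} (hu : u ^ n = 1)
    (hv : A.valuation (u - 1) < 1) : u = 1 := by
  by_contra hne
  have hvu : A.valuation u ≤ 1 := by
    have h1 : u = (u - 1) + 1 := by ring
    rw [h1]
    refine le_trans (A.valuation.map_add _ _) (max_le hv.le ?_)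
    rw [map_one]
  have hsum : ∑ i ∈ Finset.range n, u ^ i = 0 := by
    have h := mul_geom_sum u n
    rw [hu, sub_self] at h
    exact (mul_eq_zero.mp h).resolve_left (sub_ne_zero.mpr hne)
  have hn_eq : (n : L) = ∑ i ∈ Finset.range n, (1 - u ^ i) := by
    rw [Finset.sum_sub_distrib, hsum, sub_zero]
    simp
  have hterm : ∀ i ∈ Finset.range n, A.valuation (1 - u ^ i) < 1 := by
    intro i _
    have h := mul_geom_sum u i
    have h2 : 1 - u ^ i = -((u - 1) * ∑ j ∈ Finset.range i, u ^ j) := by rw [h]; ring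
    rw [h2, Valuation.map_neg, map_mul]
    refine mul_lt_one_of_lt_of_le hv ?_
    refine Valuation.map_sum_le _ fun j _ => ?_
    rw [map_pow]
    exact pow_le_one₀ zero_le hvu
  have hvn : A.valuation (n : L) < 1 := by
    rw [hn_eq]
    exact Valuation.map_sum_lt _ one_ne_zero hterm
  rw [hn] at hvn
  exact lt_irrefl _ hvn

theorem root_rigid' {n : ℕ} (hn : A.valuation (n : L) = 1) {u v : L} (hu : u ^ n = 1)
    (hv : v ^ n = 1) (h : A.valuation (u - v) < 1) : u = v := by
  have hn0 : n ≠ 0 := by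
    rintro rfl
    rw [Nat.cast_zero, map_zero] at hn
    exact zero_ne_one hn
  have hv0 : v ≠ 0 := by
    rintro rfl
    rw [zero_pow hn0] at hv
    exact zero_ne_one hv
  have hvv : A.valuation v = 1 := by
    have h1 : A.valuation v ^ n = 1 := by rw [← map_pow, hv, map_one]
    exact (pow_eq_one_iff.1 h1).resolve_right hn0
  have hw : (u * v⁻¹) ^ n = 1 := by rw [mul_pow, inv_pow, hu, hv, inv_one, mul_one]
  have hsub : u * v⁻¹ - 1 = (u - v) * v⁻¹ := by
    field_simp
  have hlt : A.valuation (u * v⁻¹ - 1) < 1 := by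
    rw [hsub, map_mul, map_inv₀, hvv, inv_one, mul_one]
    exact h
  have h1 := root_rigid A hn hw hlt
  have := congrArg (· * v) h1
  simpa [hv0] using this

end rigid

section frob

variable (q : Nat.Primes)

/-- Natural numbers prime to `q` are units at the place of `G_q`. -/
lemma valuation_natCast_eq_one {n : ℕ} (hn : ¬ (q : ℕ) ∣ n) :
    (primeLocalPlace q).valuation (n : Qbar) = 1 := by
  have h := Fermat.Agent.Lib.FrobExists.valuation_intCast_eq_one (primeLocalPlace q) (q : ℕ) q.2
    (primeLocalPlace_liesOver q) (n : ℤ) (by exact_mod_cast hn)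
  simpa using h

lemma isIntegral_of_pow_eq_one {n : ℕ} (hn : n ≠ 0) {t : Qbar} (ht : t ^ n = 1) :
    IsIntegral ℤ t :=
  IsIntegral.of_pow (Nat.pos_of_ne_zero hn) (by rw [ht]; exact isIntegral_one)

variable {q}

/-- For `q ≡ 1 mod p`, the local Galois group at `q` fixes the `p`-th roots of unity. -/
theorem rq_fix_root {p : ℕ} (hp : p.Prime) (hq1 : (q : ℕ) % p = 1)
    (g : primeLocalGaloisGroup q) (t : Qbar) (ht : t ^ p = 1) :
    primeLocalToGlobal q g t = t := by
  classical
  have hpq : ¬ (q : ℕ) ∣ p := by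
    intro h
    have h1 := (Nat.prime_dvd_prime_iff_eq q.2 hp).1 h
    rw [h1, Nat.mod_self] at hq1
    exact zero_ne_one hq1
  have hvp := valuation_natCast_eq_one q hpq
  -- the level generated by the `p`-th roots of unity
  let S : Set Qbar := {x | x ^ p = 1}
  have hSfin : S.Finite := by
    have h1 : S ⊆ ((Polynomial.X ^ p - 1 : Polynomial Qbar).roots.toFinset : Set Qbar) := by
      intro x hx
      have hx' : x ^ p = 1 := hx
      have hne : (Polynomial.X ^ p - 1 : Polynomial Qbar) ≠ 0 :=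
        Polynomial.X_pow_sub_C_ne_zero hp.pos 1
      simp only [Finset.mem_coe, Multiset.mem_toFinset]
      rw [Polynomial.mem_roots hne]
      simp [hx']
    exact (Finset.finite_toSet _).subset h1
  let K : IntermediateField ℚ Qbar := IntermediateField.adjoin ℚ S
  haveI hfin : FiniteDimensional ℚ K := by
    haveI : Finite S := hSfin
    exact IntermediateField.finiteDimensional_adjoin
      (fun x _ => Algebra.IsIntegral.isIntegral x)
  have hnorm' : @Normal ℚ K _ _ (IntermediateField.algebra' K) := by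
    rw [IntermediateField.normal_iff_forall_map_le']
    intro σ
    rw [IntermediateField.adjoin_map, IntermediateField.adjoin_le_iff]
    rintro _ ⟨y, hy, rfl⟩
    refine IntermediateField.subset_adjoin ℚ S ?_
    show (σ y) ^ p = 1
    have hy' : y ^ p = 1 := hy
    have : σ y ^ p = σ (y ^ p) := (map_pow σ y p).symm
    rw [this, hy', map_one]
  haveI hnorm : Normal ℚ K := by
    convert hnorm'
    exact Subsingleton.elim _ _
  haveI : NumberField K :=
    { to_charZero := inferInstance, to_finiteDimensional := inferInstance }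
  obtain ⟨P, φ, τ₀, a, hT, hfrob⟩ := tameData_level (q := q) K
  have hroot : ∀ s : Qbar, s ^ p = 1 → s ∈ K := fun s hs =>
    IntermediateField.subset_adjoin ℚ S hs
  -- inertia fixes the roots
  have hI : ∀ i ∈ inertiaF q K, ∀ s : Qbar, s ^ p = 1 → primeLocalToGlobal q i s = s := by
    intro i hi s hs
    have h1 := mem_inertiaF_iff.1 hi s (hroot s hs) (isIntegral_of_pow_eq_one hp.ne_zero hs)
    exact root_rigid' _ hvp (by rw [← map_pow, hs, map_one]) hs h1
  -- the Frobenius generator fixes the roots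
  have hφ : ∀ s : Qbar, s ^ p = 1 → primeLocalToGlobal q φ s = s := by
    intro s hs
    have h1 := hfrob s (hroot s hs) (isIntegral_of_pow_eq_one hp.ne_zero hs)
    have h2 : s ^ ((q : ℕ) ^ a) = s := by
      rw [pow_eq_pow_mod _ hs, Nat.pow_mod, hq1, one_pow, Nat.mod_eq_of_lt hp.one_lt, pow_one]
    rw [h2] at h1
    exact root_rigid' _ hvp (by rw [← map_pow, hs, map_one]) hs h1
  obtain ⟨n, i, hi, rfl⟩ := hT.hgen g
  rw [map_mul, map_pow, AlgEquiv.mul_apply, hI i hi t ht]
  induction n with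
  | zero => simp
  | succ n ih => rw [pow_succ, AlgEquiv.mul_apply, hφ t ht, ih]

theorem cycloK_rq_eq_one (p : ℕ) [Fact p.Prime] (k : Type) [Field k] [CharP k p]
    (hq1 : (q : ℕ) % p = 1) (g : primeLocalGaloisGroup q) :
    cycloK p k (primeLocalToGlobal q g) = 1 :=
  H47.cycloK_eq_one_of_fix p k _ (fun t ht => rq_fix_root Fact.out hq1 g t ht)

/-- A Frobenius element raises the roots of unity of order prime to `q` to the `q`-th power. -/
lemma frob_root_general (σ : Qbar ≃ₐ[ℚ] Qbar) (hσ : (primeLocalPlace q).IsFrobeniusAt σ (q : ℕ))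
    {n : ℕ} (hn : ¬ (q : ℕ) ∣ n) {z : Qbar} (hz : z ^ n = 1) : σ z = z ^ (q : ℕ) := by
  have hn0 : n ≠ 0 := fun h => hn (h ▸ dvd_zero _)
  have hzA : z ∈ primeLocalPlace q :=
    ((primeLocalPlace q).valuation_le_one_iff z).1
      (Fermat.Agent.Lib.FrobExists.valuation_le_one_of_isIntegral _ z
        (isIntegral_of_pow_eq_one hn0 hz))
  obtain ⟨hσd, hx⟩ := hσ
  have h1 := hx (IsLocalRing.residue (primeLocalPlace q) ⟨z, hzA⟩)
  rw [← IsLocalRing.ResidueField.residue_smul, ← map_pow, ← sub_eq_zero, ← map_sub,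
    IsLocalRing.residue_eq_zero_iff, ← ValuationSubring.coe_mem_nonunits_iff,
    (primeLocalPlace q).mem_nonunits_iff] at h1
  refine root_rigid' _ (valuation_natCast_eq_one q hn) ?_ ?_ h1
  · rw [← map_pow, hz, map_one]
  · rw [← pow_mul, mul_comm, pow_mul, hz, one_pow]

/-- If the level `F` contains a primitive root of unity of order `q ^ t - 1`, then every `c`
with `φ' ^ c` in the inertia group at the level `F`, `φ'` a generator modulo inertia, is a
multiple of `t`. -/
theorem dvd_of_pow_mem_inertiaF (F : IntermediateField ℚ Qbar) [NumberField F] [Normal ℚ F]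
    {t : ℕ} (ht : 0 < t) {z : Qbar} (hz : IsPrimitiveRoot z ((q : ℕ) ^ t - 1)) (hzF : z ∈ F)
    {φ' : primeLocalGaloisGroup q}
    (hnorm' : ∀ g : primeLocalGaloisGroup q, ∀ i ∈ inertiaF q F, g * i * g⁻¹ ∈ inertiaF q F)
    (hgen' : ∀ g : primeLocalGaloisGroup q, ∃ n : ℕ, ∃ i ∈ inertiaF q F, g = φ' ^ n * i)
    {c : ℕ} (hc : φ' ^ c ∈ inertiaF q F) : t ∣ c := by
  haveI : Fact (q : ℕ).Prime := ⟨q.2⟩
  set n := (q : ℕ) ^ t - 1 with hn
  have hq2 : 2 ≤ (q : ℕ) := q.2.two_le
  have hqt : 2 ≤ (q : ℕ) ^ t :=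
    hq2.trans (by calc (q : ℕ) = (q : ℕ) ^ 1 := (pow_one _).symm
      _ ≤ (q : ℕ) ^ t := Nat.pow_le_pow_right (by omega) ht)
  have hndvd : ¬ (q : ℕ) ∣ n := by
    intro h
    have h1 : (q : ℕ) ∣ (q : ℕ) ^ t := dvd_pow_self _ ht.ne'
    have h2 : (q : ℕ) ∣ (q : ℕ) ^ t - n := Nat.dvd_sub h1 h
    have h3 : (q : ℕ) ^ t - n = 1 := by omega
    rw [h3] at h2
    exact q.2.one_lt.ne' (Nat.dvd_one.1 h2)
  have hn0 : n ≠ 0 := by omega
  have hzn : z ^ n = 1 := hz.pow_eq_one
  -- a Frobenius element and its local lift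
  obtain ⟨σ, hσ⟩ := Fermat.Agent.Lib.FrobExists.exists_isFrobeniusAt (q : ℕ) q.2
    (primeLocalPlace q) (primeLocalPlace_liesOver q)
  have hdec : σ ∈ (padicPlace (q : ℕ)).decompositionSubgroup ℚ := hσ.mem_decompositionSubgroup
  obtain ⟨τ, hτ⟩ : ∃ τ : primeLocalGaloisGroup q, ∀ x ∈ F, primeLocalToGlobal q τ x = σ x :=
    Fermat.Agent.Lib.LocalGlobalDense.exists_local_lift_field (q : ℕ) σ hdec F
  have hτz : primeLocalToGlobal q τ z = z ^ (q : ℕ) := by
    rw [hτ z hzF]
    exact frob_root_general σ hσ hndvd hzn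
  have hτpow : ∀ j : ℕ, primeLocalToGlobal q (τ ^ j) z = z ^ ((q : ℕ) ^ j) := by
    intro j
    induction j with
    | zero => simp
    | succ j ih =>
      rw [pow_succ', map_mul, AlgEquiv.mul_apply, ih, map_pow, hτz, ← pow_mul, pow_succ']
  -- `τ ^ c` lies in the inertia group
  haveI : (inertiaF q F).Normal := ⟨fun i hi g => hnorm' g i hi⟩
  obtain ⟨a, i, hi, hτφ⟩ := hgen' τ
  have hτc : τ ^ c ∈ inertiaF q F := by
    rw [← QuotientGroup.eq_one_iff, QuotientGroup.mk_pow, hτφ, QuotientGroup.mk_mul,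
      (QuotientGroup.eq_one_iff i).2 hi, mul_one, QuotientGroup.mk_pow, ← pow_mul, mul_comm,
      pow_mul, ← QuotientGroup.mk_pow, (QuotientGroup.eq_one_iff (φ' ^ c)).2 hc, one_pow]
  have h1 := mem_inertiaF_iff.1 hτc z hzF (isIntegral_of_pow_eq_one hn0 hzn)
  rw [hτpow c] at h1
  have h2 : z ^ ((q : ℕ) ^ c) = z :=
    root_rigid' _ (valuation_natCast_eq_one q hndvd)
      (by rw [← pow_mul, mul_comm, pow_mul, hzn, one_pow]) hzn h1
  have hz0 : z ≠ 0 := by
    rintro rfl
    rw [zero_pow hn0] at hzn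
    exact zero_ne_one hzn
  have hqc : 1 ≤ (q : ℕ) ^ c := Nat.one_le_pow _ _ (by omega)
  have h3 : z ^ ((q : ℕ) ^ c - 1) = 1 := by
    have h4 : z ^ ((q : ℕ) ^ c - 1) * z = 1 * z := by
      rw [← pow_succ, Nat.sub_add_cancel hqc, h2, one_mul]
    exact mul_right_cancel₀ hz0 h4
  have h5 : n ∣ (q : ℕ) ^ c - 1 := (hz.pow_eq_one_iff_dvd _).1 h3
  have h6 : Nat.gcd ((q : ℕ) ^ t - 1) ((q : ℕ) ^ c - 1) = (q : ℕ) ^ t - 1 :=
    Nat.gcd_eq_left h5
  rw [Nat.pow_sub_one_gcd_pow_sub_one] at h6
  have h7 : (q : ℕ) ^ Nat.gcd t c = (q : ℕ) ^ t := by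
    have h8 : 1 ≤ (q : ℕ) ^ Nat.gcd t c := Nat.one_le_pow _ _ (by omega)
    omega
  have h9 : Nat.gcd t c = t := Nat.pow_right_injective hq2 h7
  rw [← h9]
  exact Nat.gcd_dvd_right t c

end frob

end Fermat.Agent.S56.H9
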