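import Fermat.Agent.S56.LeavesNT

set_option autoImplicit false

/-!
# Cluster T / S56, package GW: the linear algebra of the Greenberg-Wiles inequality (helper47)

`abstract_gw`: for global spaces `H`, `H'` with localisation maps to local spaces `V v`, `V' v`,
local pairings `B v` satisfying the reciprocity law `∑ v, B v (res x) (res' y) = 0`, and local
conditions `L v`:

  `dim Sel_L + dim H' ≤ dim Ш + ∑ v, dim L v + dim Sel'_{L^⊥}`.

No non-degeneracy of the local pairings is needed.
-/

noncomputable section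

namespace Fermat.Agent.S56.GW

open Module

section Abstract

variable {k : Type} [Field k] {ι : Type} [Fintype ι]
variable {E E' : Type} [AddCommGroup E] [Module k E] [AddCommGroup E'] [Module k E']
variable {V V' : ι → Type} [∀ v, AddCommGroup (V v)] [∀ v, Module k (V v)]
  [∀ v, AddCommGroup (V' v)] [∀ v, Module k (V' v)]

/-- The abstract Selmer group inside `adm`. -/
def sel (res : ∀ v, E →ₗ[k] V v) (L : ∀ v, Submodule k (V v)) (adm : Submodule k E) :
    Submodule k E :=
  (⨅ v, (L v).comap (res v)) ⊓ adm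

theorem mem_sel {res : ∀ v, E →ₗ[k] V v} {L : ∀ v, Submodule k (V v)} {adm : Submodule k E}
    {x : E} : x ∈ sel res L adm ↔ (∀ v, res v x ∈ L v) ∧ x ∈ adm := by
  simp [sel, Submodule.mem_iInf]

/-- The orthogonal complement of `L` with respect to `B`. -/
def orth {W W' : Type} [AddCommGroup W] [Module k W] [AddCommGroup W'] [Module k W']
    (B : W →ₗ[k] W' →ₗ[k] k) (L : Submodule k W) : Submodule k W' where
  carrier := {y | ∀ x ∈ L, B x y = 0}
  add_mem' := by
    intro a b ha hb x hx
    rw [map_add, ha x hx, hb x hx, add_zero]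
  zero_mem' := by
    intro x _
    rw [map_zero]
  smul_mem' := by
    intro c a ha x hx
    rw [map_smul, ha x hx, smul_zero]

theorem mem_orth {W W' : Type} [AddCommGroup W] [Module k W] [AddCommGroup W'] [Module k W']
    {B : W →ₗ[k] W' →ₗ[k] k} {L : Submodule k W} {y : W'} :
    y ∈ orth B L ↔ ∀ x ∈ L, B x y = 0 := Iff.rfl

theorem abstract_gw (res : ∀ v, E →ₗ[k] V v) (res' : ∀ v, E' →ₗ[k] V' v)
    (B : ∀ v, V v →ₗ[k] V' v →ₗ[k] k) (adm : Submodule k E) (adm' : Submodule k E')
    [FiniteDimensional k adm] [FiniteDimensional k adm']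
    (hrec : ∀ x ∈ adm, ∀ y ∈ adm', ∑ v, B v (res v x) (res' v y) = 0)
    (L : ∀ v, Submodule k (V v)) [∀ v, FiniteDimensional k (L v)] :
    finrank k (sel res L adm) + finrank k adm' ≤
      finrank k (sel res (fun _ => ⊥) adm) + ∑ v, finrank k (L v) +
        finrank k (sel res' (fun v => orth (B v) (L v)) adm') := by
  classical
  have hselle : sel res L adm ≤ adm := inf_le_right
  haveI : FiniteDimensional k (sel res L adm) := Submodule.finiteDimensional_of_le hselle
  -- the localisation map on the Selmer group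
  let resL : sel res L adm →ₗ[k] (∀ v, L v) :=
    LinearMap.pi fun v => (res v).restrict (p := sel res L adm) (q := L v)
      (fun x hx => (mem_sel.1 hx).1 v)
  -- the pairing map on `adm'`
  let ψ : adm' →ₗ[k] Module.Dual k (∀ v, L v) :=
    { toFun := fun y => ∑ v, ((B v).flip (res' v y)).comp ((L v).subtype.comp (LinearMap.proj v))
      map_add' := by
        intro y y'
        simp only [Submodule.coe_add, map_add, LinearMap.add_comp, Finset.sum_add_distrib]
      map_smul' := by
        intro c y
        simp only [Submodule.coe_smul, map_smul, LinearMap.smul_comp, Finset.smul_sum,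
          RingHom.id_apply] }
  have hψ : ∀ (y : adm') (l : ∀ v, L v), ψ y l = ∑ v, B v (l v) (res' v y) := by
    intro y l
    simp [ψ, LinearMap.sum_apply]
  -- kernel of `resL`
  have hker1 : finrank k (LinearMap.ker resL) = finrank k (sel res (fun _ => ⊥) adm) := by
    refine LinearEquiv.finrank_eq (LinearEquiv.ofBijective
      ((Submodule.subtype _).comp (Submodule.subtype _) |>.codRestrict _ ?_) ⟨?_, ?_⟩)
    · rintro ⟨⟨x, hx⟩, hx0⟩
      refine mem_sel.2 ⟨fun v => ?_, (mem_sel.1 hx).2⟩
      have := congrFun (LinearMap.mem_ker.1 hx0) v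
      have h2 : res v x = 0 := congrArg Subtype.val this
      exact (Submodule.mem_bot k).2 h2
    · rintro ⟨⟨x, hx⟩, hx0⟩ ⟨⟨y, hy⟩, hy0⟩ h
      have : x = y := congrArg Subtype.val h
      subst this
      rfl
    · rintro ⟨x, hx⟩
      have hx' : x ∈ sel res L adm :=
        mem_sel.2 ⟨fun v => by
          rw [(Submodule.mem_bot k).1 ((mem_sel.1 hx).1 v)]; exact (L v).zero_mem,
          (mem_sel.1 hx).2⟩
      refine ⟨⟨⟨x, hx'⟩, ?_⟩, rfl⟩
      refine LinearMap.mem_ker.2 (funext fun v => Subtype.ext ?_)
      exact (Submodule.mem_bot k).1 ((mem_sel.1 hx).1 v)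
  -- kernel of `ψ`
  have hker2 : finrank k (LinearMap.ker ψ) =
      finrank k (sel res' (fun v => orth (B v) (L v)) adm') := by
    refine LinearEquiv.finrank_eq (LinearEquiv.ofBijective
      ((Submodule.subtype _).comp (Submodule.subtype _) |>.codRestrict _ ?_) ⟨?_, ?_⟩)
    · rintro ⟨⟨y, hy⟩, hy0⟩
      refine mem_sel.2 ⟨fun v x hx => ?_, hy⟩
      have h1 := LinearMap.congr_fun (LinearMap.mem_ker.1 hy0)
        (Pi.single v (⟨x, hx⟩ : L v))
      rw [hψ] at h1
      rw [Finset.sum_eq_single v] at h1
      · simpa using h1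
      · intro w _ hw
        rw [Pi.single_eq_of_ne hw]
        simp
      · intro h; exact absurd (Finset.mem_univ v) h
    · rintro ⟨⟨x, hx⟩, hx0⟩ ⟨⟨y, hy⟩, hy0⟩ h
      have : x = y := congrArg Subtype.val h
      subst this
      rfl
    · rintro ⟨y, hy⟩
      have hyadm : y ∈ adm' := (mem_sel.1 hy).2
      refine ⟨⟨⟨y, hyadm⟩, ?_⟩, rfl⟩
      refine LinearMap.mem_ker.2 (LinearMap.ext fun l => ?_)
      rw [hψ]
      refine Finset.sum_eq_zero fun v _ => ?_
      exact (mem_sel.1 hy).1 v (l v) (l v).2
  -- reciprocity: the range of `ψ` kills the range of `resL`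
  have hann : LinearMap.range ψ ≤ (LinearMap.range resL).dualAnnihilator := by
    rintro _ ⟨y, rfl⟩
    rw [Submodule.mem_dualAnnihilator]
    rintro _ ⟨x, rfl⟩
    rw [hψ]
    exact hrec x.1 (mem_sel.1 x.2).2 y.1 y.2
  have h1 := LinearMap.finrank_range_add_finrank_ker resL
  have h2 := LinearMap.finrank_range_add_finrank_ker ψ
  have h3 := Subspace.finrank_add_finrank_dualAnnihilator_eq (LinearMap.range resL)
  have h4 : finrank k (LinearMap.range ψ) ≤ finrank k (LinearMap.range resL).dualAnnihilator :=
    Submodule.finrank_mono hann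
  have h5 : finrank k (∀ v, L v) = ∑ v, finrank k (L v) := Module.finrank_pi_fintype k
  omega

end Abstract

end Fermat.Agent.S56.GW

end
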