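import Fermat.Agent.S56.LeavesNT

set_option autoImplicit false

/-!
# Cluster T / S56, package GW (Greenberg-Wiles): exact statements of the sub-packages

`Stmt_GW` (in `LeavesNT.lean`) follows from (see `GW/Reduce.lean`, sorry-free):

* `Stmt_fin_glob` (GW-FIN-glob): `H¹(G_{ℚ,Sg}, M)` is finite-dimensional (Hermite-Minkowski).
* `Stmt_fin_loc`  (GW-FIN-loc):  `H¹_cont(ℚ_q, M)` is finite-dimensional.
* `Stmt_GW_core`  (GW-CORE): local pairings `P` with
    - PERF: right non-degenerate at the Taylor-Wiles primes (`q ≡ 1 mod p`, `M` unramified at `q`),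
    - REC:  the reciprocity law `∑_{q ∈ Sg} P_q(res_q x, res_q y) = 0` for global classes,
    - LB:   the lower bound
            `dim Ш¹_Sg(M) + h⁰(ℝ, M) + ∑_{q ∈ Sg} h⁰(ℚ_q, M) + h⁰(ℚ, M') ≤ dim H¹_Sg(M') + h⁰(ℚ, M)`
            (Tate's global Euler characteristic formula + Poitou-Tate in degree 2).

The linear algebra is `GW/Alg.lean`; no non-degeneracy of the local pairings is needed for the
inequality itself.
-/

noncomputable section

namespace Fermat.Agent.S56

open Polynomial IsLocalRing CategoryTheory groupCohomology ExtCitation Module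

/-- **Package GW-FIN-glob.** The continuous classes unramified outside `Sg` form a
finite-dimensional space (Hermite-Minkowski). -/
def Stmt_fin_glob : Prop :=
  ∀ (k : Type) [Field k] [Finite k] (M : Rep.{0} k GQ) [FiniteDimensional k M],
    IsSmoothRep M → ∀ Sg : Finset Nat.Primes, Module.Finite k (continuousH1S Sg M)

/-- **Package GW-FIN-loc.** The continuous local classes at `q` form a finite-dimensional
space. -/
def Stmt_fin_loc : Prop :=
  ∀ (k : Type) [Field k] [Finite k] (M : Rep.{0} k GQ) [FiniteDimensional k M],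
    IsSmoothRep M → ∀ q : Nat.Primes, Module.Finite k (locH1 M q)

/-- **Package GW-CORE** (reciprocity + lower bound + tame local duality). -/
def Stmt_GW_core : Prop :=
  ∀ (p : ℕ) [Fact p.Prime] (_hp2 : p ≠ 2) (k : Type) [Field k] [Finite k] [CharP k p]
    (M : Rep.{0} k GQ) [FiniteDimensional k M] (_hsm : IsSmoothRep M),
    ∃ P : LocalPairings p M,
      (∀ (q : Nat.Primes), (q : ℕ) % p = 1 → IsUnramifiedRepAt M (q : ℕ) →
        ∀ y : H1 (locRep (tateDual p M) q), y ∈ locH1 (tateDual p M) q →
        (∀ x ∈ locH1 M q, P.atp q x y = 0) → y = 0) ∧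
      ∀ (Sg : Finset Nat.Primes), pPrime p ∈ Sg →
        (∀ q : Nat.Primes, q ∉ Sg → IsUnramifiedRepAt M (q : ℕ)) →
        (∀ x ∈ continuousH1S Sg M, ∀ y ∈ continuousH1S Sg (tateDual p M),
          ∑ q ∈ Sg, P.atp q (resAt M q x) (resAt (tateDual p M) q y) = 0) ∧
        finrank k (sha₁ Sg M) +
            (finrank k (Rep.res archimedeanLoc M).ρ.invariants +
              ∑ q ∈ Sg, finrank k (locRep M q).ρ.invariants) +
            finrank k (tateDual p M).ρ.invariants ≤
          finrank k (continuousH1S Sg (tateDual p M)) + finrank k M.ρ.invariants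

end Fermat.Agent.S56

end
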