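import Fermat.Agent.S56.GW.Alg
import Fermat.Agent.S56.GW.Defs
import Fermat.Agent.S56.H13_LocInf
import Fermat.Agent.S56.H47_Basic

set_option autoImplicit false

/-!
# Cluster T / S56, package GW: reduction of `Stmt_GW` to the sub-packages (helper47)

`gw_of_core : Stmt_fin_glob → Stmt_fin_loc → Stmt_GW_core → Stmt_GW`, sorry-free.
-/

noncomputable section

namespace Fermat.Agent.S56

open Polynomial IsLocalRing CategoryTheory groupCohomology ExtCitation Module

theorem two_ne_zero_of_charP (p : ℕ) [Fact p.Prime] (hp2 : p ≠ 2) (k : Type) [Field k]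
    [CharP k p] : (2 : k) ≠ 0 := by
  intro h
  have h1 : ((2 : ℕ) : k) = 0 := by exact_mod_cast h
  have h2 : p ∣ 2 := (CharP.cast_eq_zero_iff k p 2).1 h1
  have h3 := (Nat.prime_dvd_prime_iff_eq (Fact.out : p.Prime) Nat.prime_two).1 h2
  exact hp2 h3

theorem sel_eq_selmerAdm {k : Type} [Field k] (M : Rep.{0} k GQ) (Sg : Finset Nat.Primes)
    (L : ∀ v : extArithIndex Sg, Submodule k (H1 (Rep.res (extArithLoc Sg v) M)))
    (adm : Submodule k (H1 M)) :
    GW.sel (fun v => (locRes (extArithLoc Sg) M v).hom) L adm =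
      selmerAdm (extArithLoc Sg) M L adm := by
  ext x
  rw [GW.mem_sel, mem_selmerAdm_iff]

theorem sel_bot_eq_sha {k : Type} [Field k] (M : Rep.{0} k GQ) (Sg : Finset Nat.Primes) :
    GW.sel (fun v => (locRes (extArithLoc Sg) M v).hom) (fun _ => ⊥) (continuousH1S Sg M) =
      sha₁ Sg M := by
  ext x
  rw [GW.mem_sel, sha₁, Submodule.mem_inf, LinearMap.mem_ker]
  constructor
  · rintro ⟨h1, h2⟩
    refine ⟨h2, funext fun v => ?_⟩
    exact (Submodule.mem_bot k).1 (h1 v)
  · rintro ⟨h2, h1⟩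
    refine ⟨fun v => ?_, h2⟩
    exact (Submodule.mem_bot k).2 (congrFun h1 v)

theorem sel_orth_eq_selmerAdm {k : Type} [Field k] (M M' : Rep.{0} k GQ) (Sg : Finset Nat.Primes)
    (B : ∀ v : extArithIndex Sg, H1 (Rep.res (extArithLoc Sg v) M) →ₗ[k]
      H1 (Rep.res (extArithLoc Sg v) M') →ₗ[k] k)
    (L : ∀ v : extArithIndex Sg, Submodule k (H1 (Rep.res (extArithLoc Sg v) M)))
    (adm' : Submodule k (H1 M')) :
    GW.sel (fun v => (locRes (extArithLoc Sg) M' v).hom) (fun v => GW.orth (B v) (L v)) adm' =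
      selmerAdm (extArithLoc Sg) M' (dualConditions (extArithLoc Sg) M M' B L) adm' := by
  ext x
  rw [GW.mem_sel, mem_selmerAdm_iff]
  constructor
  · rintro ⟨h1, h2⟩
    exact ⟨fun v => (mem_orthogonal_iff _ _ _).2 (h1 v), h2⟩
  · rintro ⟨h1, h2⟩
    exact ⟨fun v => (mem_orthogonal_iff _ _ _).1 (h1 v), h2⟩

/-- **Reduction of the Greenberg-Wiles package** to finiteness, reciprocity, the lower bound and
tame local duality. -/
theorem gw_of_core (hfg : Stmt_fin_glob) (hfl : Stmt_fin_loc) (hcore : Stmt_GW_core) :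
    Stmt_GW := by
  intro p _ hp2 k _ _ _ M _ hsm
  classical
  obtain ⟨P, hperf, hSg⟩ := hcore p hp2 k M hsm
  obtain ⟨hM'fd, hM'sm, -⟩ := H47.tate_basic p k M hsm
  haveI := hM'fd
  have h2 : (2 : k) ≠ 0 := two_ne_zero_of_charP p hp2 k
  refine ⟨P, hperf, fun Sg hpSg hur L hL => ?_⟩
  obtain ⟨hrec, hLB⟩ := hSg Sg hpSg hur
  haveI hadm : FiniteDimensional k (continuousH1S Sg M) := hfg k M hsm Sg
  haveI hadm' : FiniteDimensional k (continuousH1S Sg (tateDual p M)) :=
    hfg k (tateDual p M) hM'sm Sg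
  have hLfin : ∀ v, FiniteDimensional k (L v) := by
    intro v
    rcases v with u | q
    · have hbot : L (Sum.inl u) = ⊥ := by
        rw [eq_bot_iff]
        intro x _
        exact (Submodule.mem_bot k).2 (H13.H1_archimedean_eq_zero h2 _ x)
      rw [hbot]
      infer_instance
    · have hq : FiniteDimensional k (locH1 M q.1) := hfl k M hsm q.1
      exact @Submodule.finiteDimensional_of_le k _ _ _ _ _ _ hq (hL (Sum.inr q))
  haveI := hLfin
  -- reciprocity over `extArithIndex Sg`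
  have hrec' : ∀ x ∈ continuousH1S Sg M, ∀ y ∈ continuousH1S Sg (tateDual p M),
      ∑ v : extArithIndex Sg, P.fam Sg v ((locRes (extArithLoc Sg) M v).hom x)
        ((locRes (extArithLoc Sg) (tateDual p M) v).hom y) = 0 := by
    intro x hx y hy
    let f : extArithIndex Sg → k := fun v => P.fam Sg v ((locRes (extArithLoc Sg) M v).hom x)
        ((locRes (extArithLoc Sg) (tateDual p M) v).hom y)
    have h1 : ∑ v : extArithIndex Sg, f v =
        ∑ u : Unit, f (Sum.inl u) + ∑ q : ↥Sg, f (Sum.inr q) :=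
      Fintype.sum_sum_type (fun v : Unit ⊕ ↥Sg => f v)
    have h3 : ∑ u : Unit, f (Sum.inl u) = 0 := by
      refine Finset.sum_eq_zero fun u _ => ?_
      have hx0 : (locRes (extArithLoc Sg) M (Sum.inl u)).hom x = 0 :=
        H13.H1_archimedean_eq_zero h2 _ _
      show P.fam Sg (Sum.inl u) ((locRes (extArithLoc Sg) M (Sum.inl u)).hom x) _ = 0
      rw [hx0, map_zero]
      rfl
    have h4 : ∑ q : ↥Sg, f (Sum.inr q) =
        ∑ q ∈ Sg, P.atp q (resAt M q x) (resAt (tateDual p M) q y) :=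
      Finset.sum_coe_sort Sg
        (fun q => P.atp q (resAt M q x) (resAt (tateDual p M) q y))
    show ∑ v : extArithIndex Sg, f v = 0
    rw [h1, h3, h4, zero_add]
    exact hrec x hx y hy
  have key := GW.abstract_gw (fun v => (locRes (extArithLoc Sg) M v).hom)
    (fun v => (locRes (extArithLoc Sg) (tateDual p M) v).hom) (P.fam Sg)
    (continuousH1S Sg M) (continuousH1S Sg (tateDual p M)) hrec' L
  rw [sel_eq_selmerAdm, sel_bot_eq_sha, sel_orth_eq_selmerAdm] at key
  refine ⟨inferInstance, inferInstance, hLfin, ?_⟩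
  unfold greenbergWilesLeAdm
  rw [sum_h0]
  omega

end Fermat.Agent.S56

end
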