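import Fermat.Agent.S56.GW.Defs2
import Fermat.Agent.S56.GW.Reduce

set_option autoImplicit false
set_option linter.style.haveILetI false

/-!
# Cluster T / S56, package GW-CORE: layer-1 wiring (sorry-free)

* `lb_of_PT2_EC : Stmt_PT2 → Stmt_EC → Stmt_ARCH → Stmt_LB`
* `gw_core_of_inv : Stmt_INV → Stmt_PERF_cup → Stmt_LB → Stmt_GW_core`

The local pairings are `P_q([x], [y]) = inv_q (x ∪ y)` on continuous classes (extended to all
classes by a linear projection onto the continuous cocycles).
-/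

noncomputable section

namespace Fermat.Agent.S56

open Polynomial IsLocalRing CategoryTheory groupCohomology ExtCitation Module

/-! ### Part A: the lower bound from `PT2`, `EC`, `ARCH` -/

theorem lb_of_PT2_EC (hPT : Stmt_PT2) (hEC : Stmt_EC) (hA : Stmt_ARCH) : Stmt_LB := by
  intro p _ hp2 k _ _ _ M _ hsm Sg hpSg hur
  obtain ⟨hM'fd, hM'sm, hM'ur⟩ := H47.tate_basic p k M hsm
  haveI := hM'fd
  obtain ⟨hfin, hpt⟩ := hPT p hp2 k M hsm Sg hpSg hur
  have hur' : ∀ q : Nat.Primes, q ∉ Sg → IsUnramifiedRepAt (tateDual p M) (q : ℕ) := by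
    intro q hq
    refine hM'ur q q.2 ?_ (hur q hq)
    intro h
    apply hq
    have h1 : q = pPrime p := Subtype.ext h
    rw [h1]
    exact hpSg
  have hec := hEC p hp2 k (tateDual p M) hM'sm Sg hpSg hur' hfin
  have harch := hA p hp2 k M
  have hdim : finrank k (tateDual p M) = finrank k M := Rep.finrank_dualTwist k M _
  omega

/-! ### Part B: levels -/

section levels

variable {k : Type} [Field k]

/-- A finite-dimensional smooth representation is trivial on an open subgroup. -/
theorem exists_level_fin (M : Rep.{0} k GQ) [FiniteDimensional k M] (hsm : IsSmoothRep M) :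
    ∃ F : IntermediateField ℚ (AlgebraicClosure ℚ), FiniteDimensional ℚ F ∧
      ∀ s ∈ F.fixingSubgroup, M.ρ s = 1 := by
  choose F hF hFfix using hsm
  let b := Module.finBasis k M
  let F₀ : IntermediateField ℚ (AlgebraicClosure ℚ) := ⨆ i, F (b i)
  haveI : ∀ i, FiniteDimensional ℚ (F (b i)) := fun i => hF (b i)
  haveI : FiniteDimensional ℚ F₀ := IntermediateField.finiteDimensional_iSup_of_finite
  refine ⟨F₀, inferInstance, fun s hs => ?_⟩
  apply b.ext
  intro i
  have hsi : s ∈ (F (b i)).fixingSubgroup :=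
    IntermediateField.fixingSubgroup_antitone (le_iSup (fun i => F (b i)) i) hs
  exact hFfix (b i) s hsi

/-- A finite-dimensional smooth representation unramified outside `Sg` is trivial on the
absolute Galois group of a finite extension unramified outside `Sg`. -/
theorem exists_level_unr (M : Rep.{0} k GQ) [FiniteDimensional k M] (hsm : IsSmoothRep M)
    (Sg : Finset Nat.Primes) (hur : ∀ q : Nat.Primes, q ∉ Sg → IsUnramifiedRepAt M (q : ℕ)) :
    ∃ F : IntermediateField ℚ (AlgebraicClosure ℚ), F.IsUnramifiedOutside Sg ∧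
      ∀ s ∈ F.fixingSubgroup, M.ρ s = 1 := by
  obtain ⟨F₀, hF₀, hker⟩ := exists_level_fin M hsm
  haveI := hF₀
  haveI : IsGalois ℚ (AlgebraicClosure ℚ) := by
    letI : Algebra.IsAlgebraic ℚ (AlgebraicClosure ℚ) := AlgebraicClosure.isAlgebraic ℚ
    letI : IsAlgClosure ℚ (AlgebraicClosure ℚ) := ⟨inferInstance, inferInstance⟩
    infer_instance
  let H : Subgroup GQ := M.ρ.ker
  have hle : F₀.fixingSubgroup ≤ H := fun s hs => MonoidHom.mem_ker.mpr (hker s hs)
  have hopen : IsOpen (H : Set GQ) := Subgroup.isOpen_mono hle F₀.fixingSubgroup_isOpen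
  have hclosed : IsClosed (H : Set GQ) := (⟨H, hopen⟩ : OpenSubgroup GQ).isClosed
  let Hc : ClosedSubgroup GQ := ⟨H, hclosed⟩
  have hfix : (IntermediateField.fixedField H).fixingSubgroup = H :=
    InfiniteGalois.fixingSubgroup_fixedField Hc
  refine ⟨IntermediateField.fixedField H, ⟨?_, ?_⟩, ?_⟩
  · rw [← InfiniteGalois.isOpen_iff_finite, hfix]
    exact hopen
  · intro q hq A hA g hg
    rw [hfix]
    exact MonoidHom.mem_ker.mpr (hur q hq A hA g hg)
  · intro s hs
    rw [hfix] at hs
    exact MonoidHom.mem_ker.mp hs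

end levels

/-! ### Part C: the cup product of 1-cocycles -/

section cup

variable {k : Type} [Field k] (p : ℕ) [Fact p.Prime] [CharP k p] (M : Rep.{0} k GQ)

theorem evT_add_left (m m' : M) (φ : tateDual p M) :
    evT p M (m + m') φ = evT p M m φ + evT p M m' φ :=
  map_add (show Module.Dual k M from φ) m m'

theorem evT_sub_left (m m' : M) (φ : tateDual p M) :
    evT p M (m - m') φ = evT p M m φ - evT p M m' φ :=
  map_sub (show Module.Dual k M from φ) m m'

theorem evT_smul_left (c : k) (m : M) (φ : tateDual p M) :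
    evT p M (c • m) φ = c * evT p M m φ :=
  map_smul (show Module.Dual k M from φ) c m

theorem evT_add_right (m : M) (φ φ' : tateDual p M) :
    evT p M m (φ + φ') = evT p M m φ + evT p M m φ' := rfl

theorem evT_sub_right (m : M) (φ φ' : tateDual p M) :
    evT p M m (φ - φ') = evT p M m φ - evT p M m φ' := rfl

theorem evT_smul_right (c : k) (m : M) (φ : tateDual p M) :
    evT p M m (c • φ) = c * evT p M m φ := rfl

/-- Invariance of the evaluation pairing: `⟨g m, g φ⟩ = χ(g) ⟨m, φ⟩`. -/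
theorem evT_rho (g : GQ) (m : M) (φ : tateDual p M) :
    evT p M (M.ρ g m) ((tateDual p M).ρ g φ) = (cycloK p k g : k) * evT p M m φ := by
  have h : (tateDual p M).ρ g φ = (cycloK p k g : k) • ((show Module.Dual k M from φ) ∘ₗ M.ρ g⁻¹) :=
    Rep.dualTwist_ρ_apply M (cycloK p k) g φ
  rw [h]
  show (cycloK p k g : k) * (show Module.Dual k M from φ) (M.ρ g⁻¹ (M.ρ g m)) = _
  have h2 : M.ρ g⁻¹ (M.ρ g m) = m := by
    rw [← Module.End.mul_apply, ← map_mul, inv_mul_cancel, map_one]
    rfl
  rw [h2]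
  rfl

variable {H : Type} [Group H] (r : H →* GQ)

/-- The cup product of 1-cochains on a group `H` mapping to `G_ℚ`. -/
def cupH (x : H → M) (y : H → tateDual p M) : H × H → k :=
  fun t => evT p M (x t.1) ((tateDual p M).ρ (r t.1) (y t.2))

theorem cupH_apply (x : H → M) (y : H → tateDual p M) (g h : H) :
    cupH p M r x y (g, h) = evT p M (x g) ((tateDual p M).ρ (r g) (y h)) := rfl

theorem rho_mul_apply (N : Rep.{0} k GQ) (a b : GQ) (n : N) :
    N.ρ (a * b) n = N.ρ a (N.ρ b n) := by
  rw [map_mul]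
  rfl

/-- The cup product of two 1-cocycles is a 2-cocycle of `k(1)`. -/
theorem cupH_cocycle (x : H → M) (y : H → tateDual p M)
    (hx : ∀ g h : H, x (g * h) = M.ρ (r g) (x h) + x g)
    (hy : ∀ g h : H, y (g * h) = (tateDual p M).ρ (r g) (y h) + y g) (g h l : H) :
    (cycloK p k (r g) : k) * cupH p M r x y (h, l) - cupH p M r x y (g * h, l)
      + cupH p M r x y (g, h * l) - cupH p M r x y (g, h) = 0 := by
  have h1 : (cycloK p k (r g) : k) * cupH p M r x y (h, l) =
      evT p M (M.ρ (r g) (x h)) ((tateDual p M).ρ (r g) ((tateDual p M).ρ (r h) (y l))) :=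
    (evT_rho p M (r g) (x h) _).symm
  have h2 : cupH p M r x y (g * h, l) =
      evT p M (M.ρ (r g) (x h)) ((tateDual p M).ρ (r g) ((tateDual p M).ρ (r h) (y l))) +
        evT p M (x g) ((tateDual p M).ρ (r g) ((tateDual p M).ρ (r h) (y l))) := by
    rw [cupH_apply, hx g h, evT_add_left, map_mul, rho_mul_apply]
  have h3 : cupH p M r x y (g, h * l) =
      evT p M (x g) ((tateDual p M).ρ (r g) ((tateDual p M).ρ (r h) (y l))) +
        evT p M (x g) ((tateDual p M).ρ (r g) (y h)) := by
    rw [cupH_apply, hy h l, map_add]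
    exact evT_add_right p M _ _ _
  rw [h1, h2, h3, cupH_apply]
  ring

/-- Left coboundaries: `(d m) ∪ y = d (h ↦ ⟨m, y h⟩)`. -/
theorem cupH_cob_left (m : M) (y : H → tateDual p M)
    (hy : ∀ g h : H, y (g * h) = (tateDual p M).ρ (r g) (y h) + y g) (g h : H) :
    cupH p M r (fun g => M.ρ (r g) m - m) y (g, h) =
      (cycloK p k (r g) : k) * evT p M m (y h) - evT p M m (y (g * h)) + evT p M m (y g) := by
  have h1 : cupH p M r (fun g => M.ρ (r g) m - m) y (g, h) =
      evT p M (M.ρ (r g) m) ((tateDual p M).ρ (r g) (y h)) -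
        evT p M m ((tateDual p M).ρ (r g) (y h)) := by
    rw [cupH_apply]
    exact evT_sub_left p M _ _ _
  have h2 : evT p M m (y (g * h)) =
      evT p M m ((tateDual p M).ρ (r g) (y h)) + evT p M m (y g) := by
    rw [hy g h]
    exact evT_add_right p M _ _ _
  rw [h1, h2, evT_rho]
  ring

/-- Right coboundaries: `x ∪ (d m') = d (g ↦ - ⟨x g, g m'⟩)`. -/
theorem cupH_cob_right (x : H → M) (m' : tateDual p M)
    (hx : ∀ g h : H, x (g * h) = M.ρ (r g) (x h) + x g) (g h : H) :
    cupH p M r x (fun h => (tateDual p M).ρ (r h) m' - m') (g, h) =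
      (cycloK p k (r g) : k) * (- evT p M (x h) ((tateDual p M).ρ (r h) m'))
        - (- evT p M (x (g * h)) ((tateDual p M).ρ (r (g * h)) m'))
        + (- evT p M (x g) ((tateDual p M).ρ (r g) m')) := by
  have h1 : cupH p M r x (fun h => (tateDual p M).ρ (r h) m' - m') (g, h) =
      evT p M (x g) ((tateDual p M).ρ (r g) ((tateDual p M).ρ (r h) m')) -
        evT p M (x g) ((tateDual p M).ρ (r g) m') := by
    rw [cupH_apply, map_sub]
    exact evT_sub_right p M _ _ _
  have h2 : evT p M (x (g * h)) ((tateDual p M).ρ (r (g * h)) m') =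
      evT p M (M.ρ (r g) (x h)) ((tateDual p M).ρ (r g) ((tateDual p M).ρ (r h) m')) +
        evT p M (x g) ((tateDual p M).ρ (r g) ((tateDual p M).ρ (r h) m')) := by
    rw [hx g h, evT_add_left, map_mul, rho_mul_apply]
  rw [h1, h2, evT_rho]
  ring

theorem cupH_add_left (x x' : H → M) (y : H → tateDual p M) :
    cupH p M r (x + x') y = cupH p M r x y + cupH p M r x' y := by
  funext t
  simp only [cupH, Pi.add_apply, evT_add_left]

theorem cupH_add_right (x : H → M) (y y' : H → tateDual p M) :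
    cupH p M r x (y + y') = cupH p M r x y + cupH p M r x y' := by
  funext t
  simp only [cupH, Pi.add_apply, map_add]
  exact evT_add_right p M _ _ _

theorem cupH_smul_left (c : k) (x : H → M) (y : H → tateDual p M) :
    cupH p M r (c • x) y = c • cupH p M r x y := by
  funext t
  simp only [cupH, Pi.smul_apply, evT_smul_left, smul_eq_mul]

theorem cupH_smul_right (c : k) (x : H → M) (y : H → tateDual p M) :
    cupH p M r x (c • y) = c • cupH p M r x y := by
  funext t
  simp only [cupH, Pi.smul_apply, map_smul, smul_eq_mul]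
  exact evT_smul_right p M _ _ _

end cup

/-! ### Part D: sections and projections -/

section linalg

variable {k : Type} [Field k] {G : Type} [Group G]

theorem H1π_surj (A : Rep.{0} k G) : Function.Surjective (H1π A).hom := fun ξ =>
  H1_induction_on (C := fun ξ => ∃ c : cocycles₁ A, (H1π A).hom c = ξ) ξ (fun c => ⟨c, rfl⟩)

/-- A linear section of `H1π`. -/
def h1Sec (A : Rep.{0} k G) : H1 A →ₗ[k] cocycles₁ A :=
  ((H1π A).hom.exists_rightInverse_of_surjective
    (LinearMap.range_eq_top.2 (H1π_surj A))).choose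

theorem H1π_h1Sec (A : Rep.{0} k G) (ξ : H1 A) : (H1π A).hom (h1Sec A ξ) = ξ := by
  have h := ((H1π A).hom.exists_rightInverse_of_surjective
    (LinearMap.range_eq_top.2 (H1π_surj A))).choose_spec
  exact LinearMap.congr_fun h ξ

/-- `h1Sec (H1π c)` differs from `c` by a coboundary. -/
theorem h1Sec_H1π (A : Rep.{0} k G) (c : cocycles₁ A) :
    ∃ m : A, ∀ g : G, (h1Sec A ((H1π A).hom c) : G → A) g = c g + (A.ρ g m - m) := by
  have h : (H1π A).hom (h1Sec A ((H1π A).hom c) - c) = 0 := by
    rw [map_sub, H1π_h1Sec, sub_self]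
  rw [H1π_eq_zero_iff] at h
  obtain ⟨m, hm⟩ := h
  refine ⟨m, fun g => ?_⟩
  have h2 := congrFun hm g
  rw [d₀₁_hom_apply] at h2
  have h3 : ((h1Sec A ((H1π A).hom c) - c : cocycles₁ A) : G → A) g =
      (h1Sec A ((H1π A).hom c) : G → A) g - c g := rfl
  rw [h3] at h2
  rw [h2]
  abel

variable (r : G →* GQ)

theorem exists_levRetr (A : Rep.{0} k G) :
    ∃ g : cocycles₁ A →ₗ[k] levelCocycles₁ r A,
      ∀ c : levelCocycles₁ r A, g (c : cocycles₁ A) = c := by
  obtain ⟨C, hC⟩ := Submodule.exists_isCompl (levelCocycles₁ r A)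
  refine ⟨(levelCocycles₁ r A).projectionOnto C hC, fun c => ?_⟩
  exact Submodule.projectionOnto_apply_left hC c

/-- A linear projection of the cocycles onto the level cocycles. -/
def levProj (A : Rep.{0} k G) : cocycles₁ A →ₗ[k] cocycles₁ A :=
  (levelCocycles₁ r A).subtype ∘ₗ (exists_levRetr r A).choose

theorem levProj_isLevel (A : Rep.{0} k G) (c : cocycles₁ A) :
    IsLevelConstant₁ r (levProj r A c : G → A) :=
  ((exists_levRetr r A).choose c).2

theorem levProj_of_isLevel (A : Rep.{0} k G) (c : cocycles₁ A)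
    (hc : IsLevelConstant₁ r (c : G → A)) : levProj r A c = c := by
  have h3 : (exists_levRetr r A).choose c = ⟨c, hc⟩ :=
    (exists_levRetr r A).choose_spec ⟨c, hc⟩
  show ((levelCocycles₁ r A).subtype ((exists_levRetr r A).choose c)) = c
  rw [h3]
  rfl

end linalg

/-! ### Part E: continuity of cup products -/

section cont

variable {k : Type} [Field k] (p : ℕ) [Fact p.Prime] [CharP k p] (M : Rep.{0} k GQ)

theorem isLocZ1_of_cocycle (N : Rep.{0} k GQ) (q : Nat.Primes) (c : cocycles₁ (locRep N q))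
    (hc : IsLevelConstant₁ (rq q) (c : Gq q → N)) : IsLocZ1 N q (c : Gq q → N) :=
  ⟨fun g h => (mem_cocycles₁_iff (c : Gq q → (locRep N q))).mp c.2 g h, hc⟩

/-- The coboundary of a vector fixed by an open subgroup is level constant. -/
theorem isLevel_cob (N : Rep.{0} k GQ) (q : Nat.Primes) (m : N)
    (hm : ∃ F : IntermediateField ℚ (AlgebraicClosure ℚ), FiniteDimensional ℚ F ∧
      ∀ s ∈ F.fixingSubgroup, N.ρ s m = m) :
    IsLevelConstant₁ (rq q) (fun g : Gq q => N.ρ (rq q g) m - m) := by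
  obtain ⟨F, hF, hfix⟩ := hm
  refine ⟨F, hF, fun g s hs => ?_⟩
  show N.ρ (rq q (g * s)) m - m = N.ρ (rq q g) m - m
  rw [map_mul, rho_mul_apply, hfix _ hs]

/-- Left coboundaries cup to continuous coboundaries. -/
theorem isLocB2_cup_left (q : Nat.Primes) (m : M) (y : Gq q → tateDual p M)
    (hy : IsLocZ1 (tateDual p M) q y) :
    IsLocB2 (cycloK p k) q (cupH p M (rq q) (fun g => M.ρ (rq q g) m - m) y) := by
  refine ⟨fun h => evT p M m (y h), ?_, fun g h => ?_⟩
  · obtain ⟨F, hF, hc⟩ := hy.2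
    exact ⟨F, hF, fun g s hs => by
      show evT p M m (y (g * s)) = evT p M m (y g)
      rw [hc g s hs]⟩
  · exact cupH_cob_left p M (rq q) m y hy.1 g h

/-- Right coboundaries cup to continuous coboundaries. -/
theorem isLocB2_cup_right (q : Nat.Primes) (x : Gq q → M) (hx : IsLocZ1 M q x)
    (m' : tateDual p M)
    (hm' : ∃ F : IntermediateField ℚ (AlgebraicClosure ℚ), FiniteDimensional ℚ F ∧
      ∀ s ∈ F.fixingSubgroup, (tateDual p M).ρ s m' = m') :
    IsLocB2 (cycloK p k) q
      (cupH p M (rq q) x (fun h => (tateDual p M).ρ (rq q h) m' - m')) := by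
  refine ⟨fun g => - evT p M (x g) ((tateDual p M).ρ (rq q g) m'), ?_, fun g h => ?_⟩
  · obtain ⟨F, hF, hc⟩ := hx.2
    obtain ⟨F', hF', hfix⟩ := hm'
    haveI := hF; haveI := hF'
    refine ⟨F ⊔ F', inferInstance, fun g s hs => ?_⟩
    have h1 := hc g s (IntermediateField.fixingSubgroup_antitone le_sup_left hs)
    have h2 := hfix _ (IntermediateField.fixingSubgroup_antitone le_sup_right hs)
    show - evT p M (x (g * s)) ((tateDual p M).ρ (rq q (g * s)) m') =
      - evT p M (x g) ((tateDual p M).ρ (rq q g) m')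
    rw [h1, map_mul, rho_mul_apply, h2]
  · exact cupH_cob_right p M (rq q) x m' hx.1 g h

/-- The cup product of continuous local 1-cocycles is a continuous 2-cocycle. -/
theorem isLocZ2_cup (q : Nat.Primes) (x : Gq q → M) (hx : IsLocZ1 M q x)
    (y : Gq q → tateDual p M) (hy : IsLocZ1 (tateDual p M) q y)
    (hM' : ∃ F : IntermediateField ℚ (AlgebraicClosure ℚ), FiniteDimensional ℚ F ∧
      ∀ s ∈ F.fixingSubgroup, (tateDual p M).ρ s = 1) :
    IsLocZ2 (cycloK p k) q (cupH p M (rq q) x y) := by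
  refine ⟨fun g h l => cupH_cocycle p M (rq q) x y hx.1 hy.1 g h l, ?_⟩
  obtain ⟨F, hF, hc⟩ := hx.2
  obtain ⟨F', hF', hc'⟩ := hy.2
  obtain ⟨F'', hF'', hfix⟩ := hM'
  haveI := hF; haveI := hF'; haveI := hF''
  refine ⟨F ⊔ F' ⊔ F'', inferInstance, fun g g' s s' hs hs' => ?_⟩
  have h1 := hc g s (IntermediateField.fixingSubgroup_antitone
    (le_sup_left.trans le_sup_left) hs)
  have h2 := hc' g' s' (IntermediateField.fixingSubgroup_antitone
    (le_sup_right.trans le_sup_left) hs')
  have h3 := hfix _ (IntermediateField.fixingSubgroup_antitone le_sup_right hs)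
  show evT p M (x (g * s)) ((tateDual p M).ρ (rq q (g * s)) (y (g' * s'))) =
    evT p M (x g) ((tateDual p M).ρ (rq q g) (y g'))
  rw [h1, h2, map_mul, rho_mul_apply, h3]
  rfl

/-- The cup product of level-`Sg` global 1-cocycles is a level-`Sg` 2-cocycle. -/
theorem isGlobZ2_cup (Sg : Finset Nat.Primes) (x : GQ → M) (hx : IsGlobZ1 Sg M x)
    (y : GQ → tateDual p M) (hy : IsGlobZ1 Sg (tateDual p M) y)
    (hM' : ∃ F : IntermediateField ℚ (AlgebraicClosure ℚ), F.IsUnramifiedOutside Sg ∧
      ∀ s ∈ F.fixingSubgroup, (tateDual p M).ρ s = 1) :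
    IsGlobZ2 (cycloK p k) Sg (cupH p M (MonoidHom.id GQ) x y) := by
  refine ⟨fun g h l => cupH_cocycle p M (MonoidHom.id GQ) x y hx.1 hy.1 g h l, ?_⟩
  obtain ⟨F, hF, hc⟩ := hx.2
  obtain ⟨F', hF', hc'⟩ := hy.2
  obtain ⟨F'', hF'', hfix⟩ := hM'
  haveI := hF.1; haveI := hF'.1; haveI := hF''.1
  refine ⟨F ⊔ F' ⊔ F'', (hF.sup hF').sup hF'', fun g g' s s' hs hs' => ?_⟩
  have h1 := hc g s (IntermediateField.fixingSubgroup_antitone
    (le_sup_left.trans le_sup_left) hs)
  have h2 := hc' g' s' (IntermediateField.fixingSubgroup_antitone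
    (le_sup_right.trans le_sup_left) hs')
  have h3 := hfix _ (IntermediateField.fixingSubgroup_antitone le_sup_right hs)
  show evT p M (x (g * s)) ((tateDual p M).ρ (g * s) (y (g' * s'))) =
    evT p M (x g) ((tateDual p M).ρ g (y g'))
  rw [h1, h2, rho_mul_apply, h3]
  rfl

end cont

/-! ### Part F: the local pairings -/

section main

variable {k : Type} [Field k] (p : ℕ) [Fact p.Prime] [CharP k p] (M : Rep.{0} k GQ)

/-- The underlying function of a local cocycle, with values in `M`. -/
def locFn (N : Rep.{0} k GQ) (q : Nat.Primes) : cocycles₁ (locRep N q) →ₗ[k] (Gq q → N) :=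
  (cocycles₁ (locRep N q)).subtype

theorem locFn_apply (N : Rep.{0} k GQ) (q : Nat.Primes) (c : cocycles₁ (locRep N q))
    (g : Gq q) : locFn N q c g = c g := rfl

/-- The bilinear form on local cocycles: `(x, y) ↦ inv (π x ∪ π y)`, `π` a linear projection
onto the continuous cocycles. -/
def cupForm (q : Nat.Primes) (inv : (Gq q × Gq q → k) →ₗ[k] k) :
    cocycles₁ (locRep M q) →ₗ[k] cocycles₁ (locRep (tateDual p M) q) →ₗ[k] k :=
  LinearMap.mk₂ k
    (fun x y => inv (cupH p M (rq q) (locFn M q (levProj (rq q) (locRep M q) x))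
      (locFn (tateDual p M) q (levProj (rq q) (locRep (tateDual p M) q) y))))
    (fun x x' y => by simp only [map_add, cupH_add_left])
    (fun c x y => by simp only [map_smul, cupH_smul_left, smul_eq_mul])
    (fun x y y' => by simp only [map_add, cupH_add_right])
    (fun c x y => by simp only [map_smul, cupH_smul_right, smul_eq_mul])

theorem cupForm_apply (q : Nat.Primes) (inv : (Gq q × Gq q → k) →ₗ[k] k)
    (x : cocycles₁ (locRep M q)) (y : cocycles₁ (locRep (tateDual p M) q)) :
    cupForm p M q inv x y = inv (cupH p M (rq q) (locFn M q (levProj (rq q) (locRep M q) x))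
      (locFn (tateDual p M) q (levProj (rq q) (locRep (tateDual p M) q) y))) := rfl

/-- The local pairing at `q` on `H¹ × H¹`. -/
def pairAt (q : Nat.Primes) (inv : (Gq q × Gq q → k) →ₗ[k] k) :
    H1 (locRep M q) →ₗ[k] H1 (locRep (tateDual p M) q) →ₗ[k] k :=
  (cupForm p M q inv).compl₁₂ (h1Sec (locRep M q)) (h1Sec (locRep (tateDual p M) q))

theorem pairAt_apply (q : Nat.Primes) (inv : (Gq q × Gq q → k) →ₗ[k] k)
    (ξ : H1 (locRep M q)) (η : H1 (locRep (tateDual p M) q)) :
    pairAt p M q inv ξ η =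
      cupForm p M q inv (h1Sec (locRep M q) ξ) (h1Sec (locRep (tateDual p M) q) η) := rfl

/-- On continuous cocycles the pairing is `inv (x ∪ y)`. -/
theorem pairAt_H1π (hsm : IsSmoothRep M) (hsm' : IsSmoothRep (tateDual p M))
    (q : Nat.Primes) (inv : (Gq q × Gq q → k) →ₗ[k] k)
    (hinv : ∀ z : Gq q × Gq q → k, IsLocB2 (cycloK p k) q z → inv z = 0)
    (cx : cocycles₁ (locRep M q)) (hx : IsLevelConstant₁ (rq q) (cx : Gq q → M))
    (cy : cocycles₁ (locRep (tateDual p M) q))
    (hy : IsLevelConstant₁ (rq q) (cy : Gq q → tateDual p M)) :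
    pairAt p M q inv ((H1π (locRep M q)).hom cx) ((H1π (locRep (tateDual p M) q)).hom cy) =
      inv (cupH p M (rq q) (locFn M q cx) (locFn (tateDual p M) q cy)) := by
  rw [pairAt_apply, cupForm_apply]
  obtain ⟨m, hm⟩ := h1Sec_H1π (locRep M q) cx
  obtain ⟨m', hm'⟩ := h1Sec_H1π (locRep (tateDual p M) q) cy
  have hdm : IsLevelConstant₁ (rq q) (fun g : Gq q => M.ρ (rq q g) m - m) :=
    isLevel_cob M q m (hsm m)
  have hdm' : IsLevelConstant₁ (rq q)
      (fun g : Gq q => (tateDual p M).ρ (rq q g) m' - m') :=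
    isLevel_cob (tateDual p M) q m' (hsm' m')
  have hXeq : locFn M q (h1Sec (locRep M q) ((H1π (locRep M q)).hom cx)) =
      locFn M q cx + (fun g : Gq q => M.ρ (rq q g) m - m) := funext hm
  have hYeq : locFn (tateDual p M) q (h1Sec (locRep (tateDual p M) q)
      ((H1π (locRep (tateDual p M) q)).hom cy)) =
      locFn (tateDual p M) q cy + (fun g : Gq q => (tateDual p M).ρ (rq q g) m' - m') :=
    funext hm'
  have hlx : IsLevelConstant₁ (rq q)
      (h1Sec (locRep M q) ((H1π (locRep M q)).hom cx) : Gq q → M) := by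
    have h := hx.add hdm
    have h2 : (h1Sec (locRep M q) ((H1π (locRep M q)).hom cx) : Gq q → M) =
        (cx : Gq q → M) + (fun g : Gq q => M.ρ (rq q g) m - m) := hXeq
    rw [h2]
    exact h
  have hly : IsLevelConstant₁ (rq q)
      (h1Sec (locRep (tateDual p M) q) ((H1π (locRep (tateDual p M) q)).hom cy) :
        Gq q → tateDual p M) := by
    have h := hy.add hdm'
    have h2 : (h1Sec (locRep (tateDual p M) q) ((H1π (locRep (tateDual p M) q)).hom cy) :
        Gq q → tateDual p M) =
        (cy : Gq q → tateDual p M) +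
          (fun g : Gq q => (tateDual p M).ρ (rq q g) m' - m') := hYeq
    rw [h2]
    exact h
  rw [levProj_of_isLevel (rq q) (locRep M q) _ hlx,
    levProj_of_isLevel (rq q) (locRep (tateDual p M) q) _ hly]
  have hYZ1 : IsLocZ1 (tateDual p M) q (locFn (tateDual p M) q
      (h1Sec (locRep (tateDual p M) q) ((H1π (locRep (tateDual p M) q)).hom cy))) :=
    isLocZ1_of_cocycle (tateDual p M) q _ hly
  have hXZ1 : IsLocZ1 M q (locFn M q cx) := isLocZ1_of_cocycle M q cx hx
  rw [hXeq, cupH_add_left, map_add, hinv _ (isLocB2_cup_left p M q m _ hYZ1), add_zero,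
    hYeq, cupH_add_right, map_add, hinv _ (isLocB2_cup_right p M q _ hXZ1 m' (hsm' m')),
    add_zero]

/-- **GW-CORE from its three sub-packages.** -/
theorem gw_core_of_inv (hINV : Stmt_INV) (hPERF : Stmt_PERF_cup) (hLB : Stmt_LB) :
    Stmt_GW_core := by
  intro p _ hp2 k _ _ _ M _ hsm
  obtain ⟨inv, hB, hNZ, hREC⟩ := hINV p hp2 k
  obtain ⟨hM'fd, hM'sm, hM'ur⟩ := H47.tate_basic p k M hsm
  haveI := hM'fd
  refine ⟨⟨0, fun q => pairAt p M q (inv q)⟩, ?_, ?_⟩
  · -- tame local duality
    intro q hq1 hur y hy hxy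
    obtain ⟨cy, hcy, rfl⟩ := (mem_continuousH1_iff _ _ y).1 hy
    have hM'lev := exists_level_fin (tateDual p M) hM'sm
    have hyZ1 := isLocZ1_of_cocycle (tateDual p M) q cy hcy
    obtain ⟨m', hm'⟩ := hPERF p hp2 k M hsm q hq1 hur (locFn (tateDual p M) q cy) hyZ1
      (fun x hx => by
        let cx : cocycles₁ (locRep M q) :=
          ⟨x, (mem_cocycles₁_iff (A := locRep M q) x).2 hx.1⟩
        have h0 := hxy ((H1π (locRep M q)).hom cx) (H1π_mem_continuousH1 _ _ hx.2)
        have h1 : pairAt p M q (inv q) ((H1π (locRep M q)).hom cx)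
            ((H1π (locRep (tateDual p M) q)).hom cy) = 0 := h0
        rw [pairAt_H1π p M hsm hM'sm q (inv q) (hB q) cx hx.2 cy hcy] at h1
        exact hNZ q hq1 _ (isLocZ2_cup p M q x hx (locFn (tateDual p M) q cy) hyZ1 hM'lev) h1)
    rw [H1π_eq_zero_iff]
    refine ⟨m', funext fun g => ?_⟩
    rw [d₀₁_hom_apply]
    exact (hm' g).symm
  · intro Sg hpSg hur
    refine ⟨?_, hLB p hp2 k M hsm Sg hpSg hur⟩
    intro x hx y hy
    obtain ⟨cx, hcx, rfl⟩ := (mem_continuousH1S_iff Sg M x).1 hx
    obtain ⟨cy, hcy, rfl⟩ := (mem_continuousH1S_iff Sg (tateDual p M) y).1 hy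
    have hur' : ∀ q : Nat.Primes, q ∉ Sg → IsUnramifiedRepAt (tateDual p M) (q : ℕ) := by
      intro q hq
      refine hM'ur q q.2 ?_ (hur q hq)
      intro h
      apply hq
      have h1 : q = pPrime p := Subtype.ext h
      rw [h1]
      exact hpSg
    have hlev := exists_level_unr (tateDual p M) hM'sm Sg hur'
    have hxZ : IsGlobZ1 Sg M (cx : GQ → M) :=
      ⟨fun g h => (mem_cocycles₁_iff (cx : GQ → M)).mp cx.2 g h, hcx⟩
    have hyZ : IsGlobZ1 Sg (tateDual p M) (cy : GQ → tateDual p M) :=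
      ⟨fun g h => (mem_cocycles₁_iff (cy : GQ → tateDual p M)).mp cy.2 g h, hcy⟩
    have hz := isGlobZ2_cup p M Sg _ hxZ _ hyZ hlev
    have hrec := hREC Sg hpSg _ hz
    rw [← hrec]
    refine Finset.sum_congr rfl fun q _ => ?_
    show pairAt p M q (inv q) (resAt M q ((H1π M).hom cx))
      (resAt (tateDual p M) q ((H1π (tateDual p M)).hom cy)) = _
    rw [resAt_H1π, resAt_H1π]
    have hlx : IsLevelConstant₁ (rq q)
        (((mapCocycles₁ (primeLocalToGlobal q)
          (𝟙 (Rep.res (primeLocalToGlobal q) M))).hom cx : cocycles₁ (locRep M q)) :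
          Gq q → M) := by
      obtain ⟨F, hF, hc⟩ := hcx
      refine ⟨F, hF.1, fun g s hs => ?_⟩
      show cx (rq q (g * s)) = cx (rq q g)
      rw [map_mul]
      exact hc _ _ hs
    have hly : IsLevelConstant₁ (rq q)
        (((mapCocycles₁ (primeLocalToGlobal q)
          (𝟙 (Rep.res (primeLocalToGlobal q) (tateDual p M)))).hom cy :
            cocycles₁ (locRep (tateDual p M) q)) : Gq q → tateDual p M) := by
      obtain ⟨F, hF, hc⟩ := hcy
      refine ⟨F, hF.1, fun g s hs => ?_⟩
      show cy (rq q (g * s)) = cy (rq q g)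
      rw [map_mul]
      exact hc _ _ hs
    rw [pairAt_H1π p M hsm hM'sm q (inv q) (hB q) _ hlx _ hly]
    rfl

end main

end Fermat.Agent.S56

end
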