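import Fermat.Agent.S56.GW.Defs

set_option autoImplicit false

/-!
# Cluster T / S56, package GW-CORE: exact statements of the sub-packages (layer 1)

`Stmt_GW_core` (in `GW/Defs.lean`) follows from (see `GW/Core.lean`):

* `Stmt_INV`      (GW-INV):  local invariants `inv_q` on local 2-cochains of `k(1)`, killing the
                  level coboundaries, injective on `H²(ℚ_q, k(1))` for `q ≡ 1 mod p`, and satisfying
                  the reciprocity law `∑_{q ∈ Sg} inv_q (res_q z) = 0` for level-`Sg` 2-cocycles `z`.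
                  (Export of the S55-E4 lane: local class field theory + reciprocity.)
* `Stmt_PERF_cup` (GW-PERF): tame local duality at `q ≡ 1 mod p`, `M` unramified at `q`:
                  a continuous class `y` of `M'` with `x ∪ y = 0` in `H²(ℚ_q, k(1))` for all
                  continuous classes `x` of `M` is trivial.  (Elementary: tame inertia.)
* `Stmt_LB`       (GW-LB):   the lower bound (Tate's global Euler characteristic + Poitou-Tate).

All cochains are inhomogeneous; `k(1)` has underlying type `k`, so cochains with values in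
`k(1)` are written as `k`-valued functions and the differentials are written out.
-/

noncomputable section

namespace Fermat.Agent.S56

open Polynomial IsLocalRing CategoryTheory groupCohomology ExtCitation Module

variable {k : Type} [Field k]

/-- The local Galois group at `q`. -/
abbrev Gq (q : Nat.Primes) : Type := primeLocalGaloisGroup q

/-- The map `Gal(Q̄_q/ℚ_q) → Gal(Q̄/ℚ)`. -/
abbrev rq (q : Nat.Primes) : Gq q →* GQ := primeLocalToGlobal q

/-- Evaluation `M × M' → k`, `M' = M*(1)`. -/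
def evT (p : ℕ) [Fact p.Prime] [CharP k p] (M : Rep.{0} k GQ) (m : M) (φ : tateDual p M) : k :=
  (show Module.Dual k M from φ) m

/-- `f : G_q → M` is a continuous (level-constant) local 1-cocycle. -/
def IsLocZ1 (M : Rep.{0} k GQ) (q : Nat.Primes) (f : Gq q → M) : Prop :=
  (∀ g h : Gq q, f (g * h) = M.ρ (rq q g) (f h) + f g) ∧ IsLevelConstant₁ (rq q) f

/-- `f : G_ℚ → M` is a level-`Sg` global 1-cocycle. -/
def IsGlobZ1 (Sg : Finset Nat.Primes) (M : Rep.{0} k GQ) (f : GQ → M) : Prop :=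
  (∀ g h : GQ, f (g * h) = M.ρ g (f h) + f g) ∧ IsLevelConstantS₁ Sg f

/-- `z : G_q × G_q → k` is a continuous local 2-cocycle with values in `k(χ)`. -/
def IsLocZ2 (χ : GQ →* kˣ) (q : Nat.Primes) (z : Gq q × Gq q → k) : Prop :=
  (∀ g h l : Gq q, (χ (rq q g) : k) * z (h, l) - z (g * h, l) + z (g, h * l) - z (g, h) = 0) ∧
    IsLevelConstant₂ (rq q) z

/-- `z : G_q × G_q → k` is the coboundary of a continuous local 1-cochain with values in
`k(χ)`. -/
def IsLocB2 (χ : GQ →* kˣ) (q : Nat.Primes) (z : Gq q × Gq q → k) : Prop :=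
  ∃ f : Gq q → k, IsLevelConstant₁ (rq q) f ∧
    ∀ g h : Gq q, z (g, h) = (χ (rq q g) : k) * f h - f (g * h) + f g

/-- `z : G_ℚ × G_ℚ → k` is a level-`Sg` global 2-cocycle with values in `k(χ)`. -/
def IsGlobZ2 (χ : GQ →* kˣ) (Sg : Finset Nat.Primes) (z : GQ × GQ → k) : Prop :=
  (∀ g h l : GQ, (χ g : k) * z (h, l) - z (g * h, l) + z (g, h * l) - z (g, h) = 0) ∧
    IsLevelConstantS₂ Sg z

/-- The local cup product of 1-cochains: `(x ∪ y)(g, h) = ⟨x g, g • y h⟩`. -/
def cupLoc (p : ℕ) [Fact p.Prime] [CharP k p] (M : Rep.{0} k GQ) (q : Nat.Primes)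
    (x : Gq q → M) (y : Gq q → tateDual p M) : Gq q × Gq q → k :=
  fun t => evT p M (x t.1) ((tateDual p M).ρ (rq q t.1) (y t.2))

/-- The global cup product of 1-cochains. -/
def cupGlob (p : ℕ) [Fact p.Prime] [CharP k p] (M : Rep.{0} k GQ)
    (x : GQ → M) (y : GQ → tateDual p M) : GQ × GQ → k :=
  fun t => evT p M (x t.1) ((tateDual p M).ρ t.1 (y t.2))

/-- **Package GW-INV** (local invariants and the reciprocity law; export of S55-E4).
A family of linear functionals `inv_q` on local 2-cochains with values in `k(1)` such that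
* `inv_q` kills the continuous coboundaries,
* for `q ≡ 1 mod p` a continuous 2-cocycle with `inv_q z = 0` is a continuous coboundary
  (`H²(ℚ_q, μ_p) ≅ 𝔽_p`),
* `∑_{q ∈ Sg} inv_q (res_q z) = 0` for every level-`Sg` 2-cocycle `z` (`p ∈ Sg`). -/
def Stmt_INV : Prop :=
  ∀ (p : ℕ) [Fact p.Prime] (_hp2 : p ≠ 2) (k : Type) [Field k] [Finite k] [CharP k p],
    ∃ inv : ∀ q : Nat.Primes, (Gq q × Gq q → k) →ₗ[k] k,
      (∀ (q : Nat.Primes) (z : Gq q × Gq q → k), IsLocB2 (cycloK p k) q z → inv q z = 0) ∧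
      (∀ (q : Nat.Primes), (q : ℕ) % p = 1 → ∀ z : Gq q × Gq q → k,
        IsLocZ2 (cycloK p k) q z → inv q z = 0 → IsLocB2 (cycloK p k) q z) ∧
      ∀ (Sg : Finset Nat.Primes), pPrime p ∈ Sg → ∀ z : GQ × GQ → k,
        IsGlobZ2 (cycloK p k) Sg z →
        ∑ q ∈ Sg, inv q (fun t : Gq q × Gq q => z (rq q t.1, rq q t.2)) = 0

/-- **Package GW-PERF** (tame local duality, cup product form).  `q ≡ 1 mod p`, `M` smooth,
finite-dimensional and unramified at `q`.  If `y` is a continuous 1-cocycle of `M' = M*(1)` on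
`G_q` such that `x ∪ y` is a continuous coboundary for EVERY continuous 1-cocycle `x` of `M`,
then `y` is a coboundary. -/
def Stmt_PERF_cup : Prop :=
  ∀ (p : ℕ) [Fact p.Prime] (_hp2 : p ≠ 2) (k : Type) [Field k] [Finite k] [CharP k p]
    (M : Rep.{0} k GQ) [FiniteDimensional k M] (_hsm : IsSmoothRep M)
    (q : Nat.Primes), (q : ℕ) % p = 1 → IsUnramifiedRepAt M (q : ℕ) →
    ∀ y : Gq q → tateDual p M, IsLocZ1 (tateDual p M) q y →
      (∀ x : Gq q → M, IsLocZ1 M q x → IsLocB2 (cycloK p k) q (cupLoc p M q x y)) →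
      ∃ m' : tateDual p M, ∀ g : Gq q, y g = (tateDual p M).ρ (rq q g) m' - m'

/-- **Package GW-LB** (the lower bound): for `Sg ∋ p` outside of which `M` is unramified,
`dim Ш¹_Sg(M) + h⁰(ℝ, M) + ∑_{q ∈ Sg} h⁰(ℚ_q, M) + h⁰(ℚ, M') ≤ dim H¹_Sg(M') + h⁰(ℚ, M)`. -/
def Stmt_LB : Prop :=
  ∀ (p : ℕ) [Fact p.Prime] (_hp2 : p ≠ 2) (k : Type) [Field k] [Finite k] [CharP k p]
    (M : Rep.{0} k GQ) [FiniteDimensional k M] (_hsm : IsSmoothRep M)
    (Sg : Finset Nat.Primes), pPrime p ∈ Sg →
    (∀ q : Nat.Primes, q ∉ Sg → IsUnramifiedRepAt M (q : ℕ)) →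
    finrank k (sha₁ Sg M) +
        (finrank k (Rep.res archimedeanLoc M).ρ.invariants +
          ∑ q ∈ Sg, finrank k (locRep M q).ρ.invariants) +
        finrank k (tateDual p M).ρ.invariants ≤
      finrank k (continuousH1S Sg (tateDual p M)) + finrank k M.ρ.invariants

/-- **Package LB-a = PT2** (Poitou-Tate in degree 2, injective half): `H²_Sg(M')` is
finite-dimensional and
`dim Ш¹_Sg(M) + ∑_{q ∈ Sg} h⁰(ℚ_q, M) ≤ dim H²_Sg(M') + h⁰(ℚ, M)`
(`H¹_c(M)` injects into the dual of `H²_Sg(M')`; cone sequence in degree `≤ 1`). -/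
def Stmt_PT2 : Prop :=
  ∀ (p : ℕ) [Fact p.Prime] (_hp2 : p ≠ 2) (k : Type) [Field k] [Finite k] [CharP k p]
    (M : Rep.{0} k GQ) [FiniteDimensional k M] (_hsm : IsSmoothRep M)
    (Sg : Finset Nat.Primes), pPrime p ∈ Sg →
    (∀ q : Nat.Primes, q ∉ Sg → IsUnramifiedRepAt M (q : ℕ)) →
    Module.Finite k (continuousH2S Sg (tateDual p M)) ∧
      finrank k (sha₁ Sg M) + ∑ q ∈ Sg, finrank k (locRep M q).ρ.invariants ≤
        finrank k (continuousH2S Sg (tateDual p M)) + finrank k M.ρ.invariants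

/-- **Package LB-b = EC** (Tate's global Euler characteristic formula, the inequality that is
needed): for `N` smooth, finite-dimensional, unramified outside `Sg ∋ p`, with `H²_Sg(N)`
finite-dimensional,
`h²_Sg(N) + h⁰(ℚ, N) + (dim N - h⁰(ℝ, N)) ≤ h¹_Sg(N)`.
(In truth an equality: `χ(G_Sg, N) = h⁰(ℝ, N) - dim N`.) -/
def Stmt_EC : Prop :=
  ∀ (p : ℕ) [Fact p.Prime] (_hp2 : p ≠ 2) (k : Type) [Field k] [Finite k] [CharP k p]
    (N : Rep.{0} k GQ) [FiniteDimensional k N] (_hsm : IsSmoothRep N)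
    (Sg : Finset Nat.Primes), pPrime p ∈ Sg →
    (∀ q : Nat.Primes, q ∉ Sg → IsUnramifiedRepAt N (q : ℕ)) →
    Module.Finite k (continuousH2S Sg N) →
    finrank k (continuousH2S Sg N) + finrank k N.ρ.invariants +
        (finrank k N - finrank k (Rep.res archimedeanLoc N).ρ.invariants) ≤
      finrank k (continuousH1S Sg N)

/-- **Package LB-c = ARCH** (complex conjugation): `h⁰(ℝ, M) + h⁰(ℝ, M') = dim M` (`p` odd). -/
def Stmt_ARCH : Prop :=
  ∀ (p : ℕ) [Fact p.Prime] (_hp2 : p ≠ 2) (k : Type) [Field k] [Finite k] [CharP k p]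
    (M : Rep.{0} k GQ) [FiniteDimensional k M],
    finrank k (Rep.res archimedeanLoc M).ρ.invariants +
        finrank k (Rep.res archimedeanLoc (tateDual p M)).ρ.invariants = finrank k M

end Fermat.Agent.S56

end
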