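import Fermat.Agent.S56.GW.H92_FinGlob
import Fermat.Agent.Lib.H25_HermiteMinkowski

/-!
# GW-FIN-glob, unconditional

`Fermat.Agent.S56.H92.fin_glob_of_HM` reduces the finiteness of `H¹(G_{ℚ,Sg}, M)` to the
Hermite–Minkowski statement, which is proved in `Fermat.Agent.Lib.H25_HermiteMinkowski`.
-/

namespace Fermat.Agent.S56.H25

/-- GW-FIN-glob, unconditional. -/
theorem stmt_fin_glob : Fermat.Agent.S56.Stmt_fin_glob :=
  Fermat.Agent.S56.H92.fin_glob_of_HM Fermat.Agent.Lib.H25HM.stmt_HM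

end Fermat.Agent.S56.H25
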