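import Fermat.Agent.S56.GW.Defs

set_option autoImplicit false
set_option linter.style.haveILetI false

/-!
# Cluster T / S56, package GW-FIN-glob: finiteness of `H¹(G_{ℚ,Sg}, M)`

For a finite coefficient module `M` the zero set `U_c = c⁻¹(0)` of a 1-cocycle `c` is a subgroup of
index `≤ #M` (the map `G ⧸ U_c → M`, `g ↦ c g`, is injective), and `c` is constant on the left
cosets of a subgroup `U` exactly when `U ≤ U_c`.  So a cocycle of level `F` (`F` unramified outside
`Sg`) is a cocycle of level `F_c := Q̄^{U_c} ⊆ F`, a field of degree `≤ #M` unramified outside `Sg`.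
By Hermite–Minkowski there are finitely many such fields; all cocycles are constant on the cosets
of the fixing subgroup of their compositum, a subgroup of finite index: there are finitely many
cocycles.

Neither smoothness of `M` nor any ramification hypothesis on `M` is used.

* `HMInput` : Hermite–Minkowski, verbatim the statement `Fermat.Agent.S17.Stmt_HM`
  (restated here to keep the imports of this file light).
* `fin_glob_of_HM : HMInput → Stmt_fin_glob`.
-/

noncomputable section

namespace Fermat.Agent.S56.H92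

open groupCohomology IntermediateField

/-- Hermite–Minkowski: finitely many number fields (inside `Q̄`) of bounded degree unramified
outside the primes dividing `B`.  Verbatim `Fermat.Agent.S17.Stmt_HM`. -/
def HMInput : Prop :=
  ∀ B d : ℕ, B ≠ 0 →
    {F : IntermediateField ℚ (AlgebraicClosure ℚ) | FiniteDimensional ℚ F ∧
      Module.finrank ℚ F ≤ d ∧
      ∀ ℓ : ℕ, ℓ.Prime → ¬ ℓ ∣ B → ∀ A : ValuationSubring (AlgebraicClosure ℚ),
        A.LiesOverPrime ℓ → A.inertiaSubgroupIn ℚ ≤ F.fixingSubgroup}.Finite

section abstract_cocycle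

variable {k : Type} [CommRing k] {G : Type} [Group G] (M : Rep k G)

/-- The zero set of a 1-cocycle is a subgroup. -/
def zeroSubgroup (c : cocycles₁ M) : Subgroup G where
  carrier := {s | c s = 0}
  one_mem' := cocycles₁_map_one c
  mul_mem' := by
    intro a b ha hb
    have h := (mem_cocycles₁_iff (c : G → M)).1 c.2 a b
    simp only [Set.mem_ofPred_eq] at ha hb ⊢
    rw [h, ha, hb, map_zero, add_zero]
  inv_mem' := by
    intro a ha
    simp only [Set.mem_ofPred_eq] at ha ⊢
    have h := cocycles₁_map_inv c a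
    rw [ha] at h
    have h2 : M.ρ a (c a⁻¹) = 0 := by rw [h, neg_zero]
    have h3 := congrArg (M.ρ a⁻¹) h2
    rwa [map_zero, ← Module.End.mul_apply, ← map_mul, inv_mul_cancel, map_one,
      Module.End.one_apply] at h3

theorem mem_zeroSubgroup {c : cocycles₁ M} {s : G} : s ∈ zeroSubgroup M c ↔ c s = 0 := Iff.rfl

/-- Two elements with the same value of `c` are in the same left coset of the zero subgroup. -/
theorem inv_mul_mem_zeroSubgroup {c : cocycles₁ M} {g h : G} (e : c g = c h) :
    g⁻¹ * h ∈ zeroSubgroup M c := by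
  rw [mem_zeroSubgroup]
  have h1 := (mem_cocycles₁_iff (c : G → M)).1 c.2 g⁻¹ h
  have h2 := (mem_cocycles₁_iff (c : G → M)).1 c.2 g⁻¹ g
  rw [inv_mul_cancel, cocycles₁_map_one] at h2
  rw [h1, ← e]
  exact h2.symm

/-- A cocycle is constant on the left cosets of its zero subgroup. -/
theorem map_mul_of_mem_zeroSubgroup {c : cocycles₁ M} (g : G) {s : G}
    (hs : s ∈ zeroSubgroup M c) : c (g * s) = c g := by
  have h1 := (mem_cocycles₁_iff (c : G → M)).1 c.2 g s
  rw [h1, (mem_zeroSubgroup M).1 hs, map_zero, zero_add]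

/-- A cocycle constant on the left cosets of `U` vanishes on `U`. -/
theorem le_zeroSubgroup {c : cocycles₁ M} {U : Subgroup G}
    (h : ∀ g s, s ∈ U → c (g * s) = c g) : U ≤ zeroSubgroup M c := by
  intro s hs
  rw [mem_zeroSubgroup]
  have := h 1 s hs
  rwa [one_mul, cocycles₁_map_one] at this

/-- The zero subgroup of a cocycle with values in a finite module has index `≤ #M`. -/
theorem index_zeroSubgroup_le [Finite M] (c : cocycles₁ M) :
    (zeroSubgroup M c).index ≤ Nat.card M ∧ (zeroSubgroup M c).index ≠ 0 := by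
  classical
  let f : G ⧸ zeroSubgroup M c → M :=
    Quotient.lift (fun g : G => c g) (by
      intro a b hab
      have hab' : a⁻¹ * b ∈ zeroSubgroup M c := QuotientGroup.leftRel_apply.1 hab
      have := map_mul_of_mem_zeroSubgroup M a hab'
      rw [mul_inv_cancel_left] at this
      exact this.symm)
  have hf : Function.Injective f := by
    intro x y
    refine Quotient.inductionOn₂ x y ?_
    intro a b hab
    exact Quotient.sound (QuotientGroup.leftRel_apply.2 (inv_mul_mem_zeroSubgroup M hab))
  have : Finite (G ⧸ zeroSubgroup M c) := Finite.of_injective f hf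
  refine ⟨?_, ?_⟩
  · rw [Subgroup.index_eq_card]
    exact Nat.card_le_card_of_injective f hf
  · rw [Subgroup.index_eq_card]
    exact Nat.card_pos.ne'

end abstract_cocycle

section galois

theorem qbar_isGalois92 : IsGalois ℚ (AlgebraicClosure ℚ) := by
  haveI : Algebra.IsAlgebraic ℚ (AlgebraicClosure ℚ) := AlgebraicClosure.isAlgebraic ℚ
  haveI : IsAlgClosure ℚ (AlgebraicClosure ℚ) := ⟨inferInstance, inferInstance⟩
  infer_instance

attribute [local instance] qbar_isGalois92

variable {k : Type} [CommRing k] (M : Rep k GQ)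

/-- The field cut out by a level-`Sg` cocycle with finitely many values: bounded degree,
unramified outside `Sg`, and its fixing subgroup is the zero subgroup of the cocycle. -/
theorem exists_field_of_cocycle [Finite M] (Sg : Finset Nat.Primes) (c : cocycles₁ M)
    (hc : IsLevelConstantS₁ Sg (c : GQ → M)) :
    ∃ F : IntermediateField ℚ (AlgebraicClosure ℚ), FiniteDimensional ℚ F ∧
      Module.finrank ℚ F ≤ Nat.card M ∧
      (∀ ℓ : ℕ, ℓ.Prime → ¬ ℓ ∣ ∏ q ∈ Sg, (q : ℕ) →
        ∀ A : ValuationSubring (AlgebraicClosure ℚ),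
        A.LiesOverPrime ℓ → A.inertiaSubgroupIn ℚ ≤ F.fixingSubgroup) ∧
      F.fixingSubgroup = zeroSubgroup M c := by
  classical
  obtain ⟨F', hF', hconst⟩ := hc
  haveI := hF'.1
  set K : Subgroup GQ := zeroSubgroup M c with hK
  have hle : F'.fixingSubgroup ≤ K := le_zeroSubgroup M hconst
  have hopen : IsOpen (K : Set GQ) :=
    Subgroup.isOpen_mono hle (IntermediateField.fixingSubgroup_isOpen F')
  have hclosed : IsClosed (K : Set GQ) := Subgroup.isClosed_of_isOpen K hopen
  let Kc : ClosedSubgroup GQ := ⟨K, hclosed⟩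
  have hfix : (IntermediateField.fixedField K).fixingSubgroup = K :=
    InfiniteGalois.fixingSubgroup_fixedField Kc
  refine ⟨IntermediateField.fixedField K, ?_, ?_, ?_, hfix⟩
  · have hle' : IntermediateField.fixedField K ≤ F' := by
      have := IntermediateField.fixedField_le (F := ℚ) (E := AlgebraicClosure ℚ) hle
      rwa [InfiniteGalois.fixedField_fixingSubgroup] at this
    exact FiniteDimensional.of_injective (IntermediateField.inclusion hle').toLinearMap
      (IntermediateField.inclusion_injective hle')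
  · rw [IntermediateField.finrank_eq_fixingSubgroup_index, hfix]
    exact (index_zeroSubgroup_le M c).1
  · intro ℓ hℓ hdvd A hA
    rw [hfix]
    have hmem : (⟨ℓ, hℓ⟩ : Nat.Primes) ∉ Sg := by
      intro hin
      exact hdvd (Finset.dvd_prod_of_mem (fun q : Nat.Primes => (q : ℕ)) hin)
    exact (hF'.2 ⟨ℓ, hℓ⟩ hmem A hA).trans hle

/-- Under Hermite–Minkowski, there is one subgroup of finite index on whose left cosets every
level-`Sg` cocycle with values in the finite module `M` is constant. -/
theorem exists_subgroup_of_HM (hHM : HMInput) [Finite M] (Sg : Finset Nat.Primes) :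
    ∃ U : Subgroup GQ, U.FiniteIndex ∧
      ∀ c : cocycles₁ M, IsLevelConstantS₁ Sg (c : GQ → M) → ∀ g s, s ∈ U → c (g * s) = c g := by
  classical
  have hB : (∏ q ∈ Sg, (q : ℕ)) ≠ 0 :=
    Finset.prod_ne_zero_iff.2 (fun q _ => q.2.ne_zero)
  have hfin := hHM (∏ q ∈ Sg, (q : ℕ)) (Nat.card M) hB
  set 𝔉 := {F : IntermediateField ℚ (AlgebraicClosure ℚ) | FiniteDimensional ℚ F ∧
      Module.finrank ℚ F ≤ Nat.card M ∧
      ∀ ℓ : ℕ, ℓ.Prime → ¬ ℓ ∣ ∏ q ∈ Sg, (q : ℕ) →
        ∀ A : ValuationSubring (AlgebraicClosure ℚ),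
        A.LiesOverPrime ℓ → A.inertiaSubgroupIn ℚ ≤ F.fixingSubgroup} with h𝔉
  haveI : Finite 𝔉 := hfin
  haveI : ∀ F : 𝔉, FiniteDimensional ℚ (F : IntermediateField ℚ (AlgebraicClosure ℚ)) :=
    fun F => F.2.1
  set L : IntermediateField ℚ (AlgebraicClosure ℚ) :=
    ⨆ F : 𝔉, (F : IntermediateField ℚ (AlgebraicClosure ℚ)) with hL
  haveI hLfd : FiniteDimensional ℚ L := IntermediateField.finiteDimensional_iSup_of_finite
  refine ⟨L.fixingSubgroup, ?_, ?_⟩
  · rw [Subgroup.finiteIndex_iff, ← IntermediateField.finrank_eq_fixingSubgroup_index]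
    exact Module.finrank_pos.ne'
  · intro c hc g s hs
    obtain ⟨F, hFfd, hFd, hFur, hFc⟩ := exists_field_of_cocycle M Sg c hc
    have hFmem : F ∈ 𝔉 := ⟨hFfd, hFd, hFur⟩
    have hle : F ≤ L := le_iSup (fun F : 𝔉 => (F : IntermediateField ℚ (AlgebraicClosure ℚ)))
      ⟨F, hFmem⟩
    have hs' : s ∈ zeroSubgroup M c := by
      rw [← hFc]
      exact IntermediateField.fixingSubgroup_antitone hle hs
    exact map_mul_of_mem_zeroSubgroup M g hs'

/-- Under Hermite–Minkowski, there are finitely many level-`Sg` cocycles with values in a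
finite module. -/
theorem finite_levelCocyclesS₁_of_HM (hHM : HMInput) [Finite M] (Sg : Finset Nat.Primes) :
    Finite (levelCocyclesS₁ Sg M) := by
  classical
  obtain ⟨U, hU, hconst⟩ := exists_subgroup_of_HM M hHM Sg
  haveI : Finite (GQ ⧸ U) := Subgroup.finite_quotient_of_finiteIndex
  let Φ : levelCocyclesS₁ Sg M → (GQ ⧸ U → M) := fun c =>
    Quotient.lift (fun g : GQ => (c : cocycles₁ M) g) (by
      intro a b hab
      have hab' : a⁻¹ * b ∈ U := QuotientGroup.leftRel_apply.1 hab
      have := hconst (c : cocycles₁ M) c.2 a (a⁻¹ * b) hab'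
      rw [mul_inv_cancel_left] at this
      exact this.symm)
  refine Finite.of_injective Φ ?_
  intro c c' h
  apply Subtype.ext
  apply Subtype.ext
  funext g
  exact congrFun h (QuotientGroup.mk g)

end galois

/-- **Package GW-FIN-glob**, relative to Hermite–Minkowski. -/
theorem fin_glob_of_HM (hHM : HMInput) : Stmt_fin_glob := by
  intro k _ _ M _ _ Sg
  haveI : Finite M := Module.finite_of_finite k
  haveI : Finite (levelCocyclesS₁ Sg M) := finite_levelCocyclesS₁_of_HM M hHM Sg
  have hfin : (continuousH1S Sg M : Set (H1 M)).Finite := by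
    have : (continuousH1S Sg M : Set (H1 M)) = (H1π M).hom '' (levelCocyclesS₁ Sg M : Set _) := by
      rw [continuousH1S, Submodule.map_coe]
    rw [this]
    exact (Set.toFinite _).image _
  haveI : Finite (continuousH1S Sg M) := hfin
  exact Module.Finite.of_finite

end Fermat.Agent.S56.H92

end
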