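import Fermat.Agent.Lib.LocalKummer.Cover
import Fermat.Agent.Lib.LocalKummer.Finite
import Fermat.Agent.Lib.LocalKummer.CocycleFinite
import Fermat.Agent.S56.GW.Defs
import Fermat.Agent.S56.H9_LocTW
import Fermat.Agent.S56.H9_Kummer

/-
Package GW-FIN-loc of cluster T (S56): the continuous local cohomology `H¹_cont(ℚ_q, M)` of a
finite smooth representation is finite (all primes `q`, including the residue characteristic).
Route: Kummer theory inside `PadicAlgCl q` (Lagrange resolvents, finiteness of `Eˣ / ℓ`).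
-/
set_option autoImplicit false
set_option linter.unusedSectionVars false
set_option linter.style.haveILetI false

namespace Fermat.Agent.S56.H9

open Fermat.Agent.Lib.LocalKummer groupCohomology ExtCitation CategoryTheory
open scoped IntermediateField

local notation "Qbar" => AlgebraicClosure ℚ

section galois

/-- A finite extension of `ℚ` inside `Qbar` is simple. -/
lemma exists_primitive (F : IntermediateField ℚ Qbar) [FiniteDimensional ℚ F] :
    ∃ θ : Qbar, F = ℚ⟮θ⟯ := by
  obtain ⟨α, hα⟩ := Field.exists_primitive_element ℚ F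
  refine ⟨(α : Qbar), le_antisymm ?_ (IntermediateField.adjoin_simple_le_iff.2 α.2)⟩
  intro x hx
  have h1 : (⟨x, hx⟩ : F) ∈ ℚ⟮α⟯ := by
    rw [hα]
    trivial
  have key : ∀ y : F, y ∈ ℚ⟮α⟯ → (y : Qbar) ∈ ℚ⟮(α : Qbar)⟯ := by
    intro y hy
    induction hy using IntermediateField.adjoin_induction with
    | mem z hz =>
      rw [Set.mem_singleton_iff] at hz
      rw [hz]
      exact IntermediateField.mem_adjoin_simple_self ℚ _
    | algebraMap r =>
      have : ((algebraMap ℚ F r : F) : Qbar) = algebraMap ℚ Qbar r := by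
        simp
      rw [this]
      exact IntermediateField.algebraMap_mem _ r
    | add z w _ _ hz hw => exact add_mem hz hw
    | inv z _ hz => exact inv_mem hz
    | mul z w _ _ hz hw => exact mul_mem hz hw
  exact key ⟨x, hx⟩ h1

lemma mem_fixingSubgroup_simple {K L : Type*} [Field K] [Field L] [Algebra K L]
    (σ : L ≃ₐ[K] L) (x : L) : σ ∈ (K⟮x⟯).fixingSubgroup ↔ σ x = x := by
  constructor
  · intro h
    exact (IntermediateField.mem_fixingSubgroup_iff _ _).1 h x
      (IntermediateField.mem_adjoin_simple_self K x)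
  · intro h
    let E' : IntermediateField K L :=
      Subalgebra.toIntermediateField (AlgHom.equalizer (σ : L →ₐ[K] L) (AlgHom.id K L))
        (fun y hy => by
          show σ y⁻¹ = y⁻¹
          rw [map_inv₀]
          congr 1)
    have h1 : K⟮x⟯ ≤ E' := IntermediateField.adjoin_simple_le_iff.2 h
    rw [IntermediateField.mem_fixingSubgroup_iff]
    intro y hy
    exact h1 hy

variable (q : ℕ) [Fact q.Prime]

local notation "Ω" => PadicAlgCl q

lemma lvl_simple_eq (θ : Qbar) :
    lvl q ℚ⟮θ⟯ = (ℚ_[q]⟮padicEmbedding q θ⟯).fixingSubgroup := by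
  ext s
  rw [mem_lvl, mem_fixingSubgroup_simple, mem_fixingSubgroup_simple]
  constructor
  · intro h
    have := smul_padicEmbedding q s θ
    rw [h] at this
    exact this
  · intro h
    have h1 := smul_padicEmbedding q s θ
    rw [smul_eq_apply, h] at h1
    exact ((padicEmbedding q).injective h1).symm

/-- Finiteness of the quotient by a pulled-back level subgroup. -/
lemma finite_quot_comap {V : Type*} [Group V] (ρ : V →* (Qbar ≃ₐ[ℚ] Qbar))
    (F : IntermediateField ℚ Qbar) [FiniteDimensional ℚ F] :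
    Finite (V ⧸ F.fixingSubgroup.comap ρ) := by
  let f : V → (F →ₐ[ℚ] Qbar) := fun s => ((ρ s : Qbar ≃ₐ[ℚ] Qbar) : Qbar →ₐ[ℚ] Qbar).comp F.val
  have hf : ∀ s t : V, f s = f t → s⁻¹ * t ∈ F.fixingSubgroup.comap ρ := by
    intro s t hst
    rw [Subgroup.mem_comap, IntermediateField.mem_fixingSubgroup_iff]
    intro x hx
    have h1 : ρ s x = ρ t x := congrArg (fun φ : F →ₐ[ℚ] Qbar => φ ⟨x, hx⟩) hst
    rw [map_mul, map_inv]
    show (ρ s)⁻¹ (ρ t x) = x
    rw [← h1]
    exact (ρ s).symm_apply_apply x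
  have hf' : ∀ s t : V, s⁻¹ * t ∈ F.fixingSubgroup.comap ρ → f s = f t := by
    intro s t hst
    rw [Subgroup.mem_comap, IntermediateField.mem_fixingSubgroup_iff] at hst
    apply AlgHom.ext
    intro x
    have h1 := hst x x.2
    rw [map_mul, map_inv] at h1
    show ρ s x = ρ t x
    have h2 : (ρ s)⁻¹ (ρ t x) = x := h1
    have h3 := congrArg (ρ s) h2
    rw [← h3]
    exact (ρ s).apply_symm_apply (ρ t x)
  let fbar : V ⧸ F.fixingSubgroup.comap ρ → (F →ₐ[ℚ] Qbar) :=
    Quotient.lift f (fun s t hst => hf' s t (QuotientGroup.leftRel_apply.1 hst))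
  have hinj : Function.Injective fbar := by
    intro x y hxy
    induction x using QuotientGroup.induction_on with
    | H s =>
      induction y using QuotientGroup.induction_on with
      | H t => exact QuotientGroup.eq.2 (hf s t hxy)
  exact Finite.of_injective fbar hinj

end galois

section chars

variable (q : ℕ) [Fact q.Prime] (ℓ : ℕ)

local notation "Ω" => PadicAlgCl q

/-- Continuous additive characters of a level subgroup of the local Galois group. -/
def IsContChar (F : IntermediateField ℚ Qbar) (ψ : ↥(lvl q F) → ZMod ℓ) : Prop :=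
  (∀ u v, ψ (u * v) = ψ u + ψ v) ∧
    ∃ F' : IntermediateField ℚ Qbar, FiniteDimensional ℚ F' ∧
      ∀ u : lvl q F, (u : PadicAlgCl q ≃ₐ[ℚ_[q]] PadicAlgCl q) ∈ lvl q F' → ψ u = 0

/-- **Finiteness of the continuous characters** of an open subgroup of `G_{ℚ_q}` with values
in `ZMod ℓ` (any primes `q`, `ℓ`), when the subgroup fixes the `ℓ`-th roots of unity. -/
theorem finite_contChar (hℓ : ℓ.Prime) (F : IntermediateField ℚ Qbar) [FiniteDimensional ℚ F]
    {ζ₀ : Qbar} (hζ₀ : IsPrimitiveRoot ζ₀ ℓ) (hζF : ζ₀ ∈ F) :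
    {ψ : ↥(lvl q F) → ZMod ℓ | IsContChar q ℓ F ψ}.Finite := by
  haveI : NeZero ℓ := ⟨hℓ.ne_zero⟩
  obtain ⟨θ, hθ⟩ := exists_primitive F
  set E : IntermediateField ℚ_[q] Ω := ℚ_[q]⟮padicEmbedding q θ⟯ with hE
  haveI : FiniteDimensional ℚ_[q] E :=
    IntermediateField.adjoin.finiteDimensional
      ((PadicAlgCl.isAlgebraic q).isAlgebraic (padicEmbedding q θ)).isIntegral
  have hlvl : lvl q F = E.fixingSubgroup := by
    rw [hθ]
    exact lvl_simple_eq q θ
  obtain ⟨T, hT, hrep⟩ := exists_finite_reps q ℓ hℓ E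
  set ζ : Ω := padicEmbedding q ζ₀ with hζdef
  have hζ : IsPrimitiveRoot ζ ℓ := hζ₀.map_of_injective (padicEmbedding q).injective
  have hfix : ∀ u : lvl q F, u • ζ = ζ := fun u => (mem_lvl_iff q).1 u.2 ⟨ζ₀, hζF⟩
  have hfin := finite_kummerChar (G := ↥(lvl q F)) hζ hfix T hT (by
    intro a ha0 hafix
    have haE : a ∈ E := by
      rw [← InfiniteGalois.fixedField_fixingSubgroup E, IntermediateField.mem_fixedField_iff]
      intro σ hσ
      rw [← hlvl] at hσ
      exact hafix ⟨σ, hσ⟩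
    obtain ⟨t, ht, b, hb0, hb, hab⟩ := hrep a haE ha0
    refine ⟨t, ht, b, hb0, fun u => ?_, hab⟩
    have hu : (u : PadicAlgCl q ≃ₐ[ℚ_[q]] PadicAlgCl q) ∈ E.fixingSubgroup :=
      hlvl ▸ u.2
    exact hb u hu)
  refine hfin.subset ?_
  rintro ψ ⟨hadd, F', hF', hψ⟩
  haveI := hF'
  haveI hFF' : FiniteDimensional ℚ (F ⊔ F' : IntermediateField ℚ Qbar) :=
    IntermediateField.finiteDimensional_sup F F'
  let ρ : ↥(lvl q F) →* (Qbar ≃ₐ[ℚ] Qbar) := (localGaloisToGlobal q).comp (lvl q F).subtype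
  haveI : Finite (↥(lvl q F) ⧸ (F ⊔ F').fixingSubgroup.comap ρ) := finite_quot_comap ρ (F ⊔ F')
  refine exists_resolvent ζ hζ.pow_eq_one hfix ψ hadd ((F ⊔ F').fixingSubgroup.comap ρ) ?_
    ((padicEmbedding q : Qbar →* Ω).comp ((F ⊔ F' : IntermediateField ℚ Qbar).val :
      (F ⊔ F' : IntermediateField ℚ Qbar) →* Qbar)) ?_ ?_
  · intro u hu
    apply hψ u
    exact IntermediateField.fixingSubgroup_antitone le_sup_right hu
  · intro u hu
    have h1 : (u : PadicAlgCl q ≃ₐ[ℚ_[q]] PadicAlgCl q) ∈ lvl q (F ⊔ F') :=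
      (mem_lvl_iff q).2 hu
    exact h1
  · intro u hu x
    have h1 : (u : PadicAlgCl q ≃ₐ[ℚ_[q]] PadicAlgCl q) ∈ lvl q (F ⊔ F') := hu
    exact (mem_lvl_iff q).1 h1 x

end chars

section cocycles

/-- Coordinates on a finite `ZMod ℓ`-vector space. -/
lemma exists_coords (ℓ : ℕ) [Fact ℓ.Prime] (M : Type) [AddCommGroup M] [Module (ZMod ℓ) M]
    [Finite M] : ∃ (n : ℕ) (co : M →+ (Fin n → ZMod ℓ)), Function.Injective co := by
  haveI : Module.Finite (ZMod ℓ) M := Module.Finite.of_finite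
  let B := Module.finBasis (ZMod ℓ) M
  refine ⟨Module.finrank (ZMod ℓ) M, (B.equivFun : M ≃ₗ[ZMod ℓ] _).toLinearMap.toAddMonoidHom,
    ?_⟩
  exact B.equivFun.injective

variable (q : ℕ) [Fact q.Prime]

/-- Finiteness of the set of level-constant crossed homomorphisms of the local Galois group at
`q` with values in a finite `k`-vector space on which an open subgroup acts trivially. -/
theorem finite_levelCocycles (k : Type) [Field k] [Finite k] (M : Type) [AddCommGroup M]
    [Module k M] [FiniteDimensional k M]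
    (ρ : (PadicAlgCl q ≃ₐ[ℚ_[q]] PadicAlgCl q) → M →ₗ[k] M)
    (F0 : IntermediateField ℚ Qbar) [FiniteDimensional ℚ F0]
    (hρ : ∀ u ∈ lvl q F0, ρ u = 1) :
    {c : (PadicAlgCl q ≃ₐ[ℚ_[q]] PadicAlgCl q) → M |
      (∀ g h, c (g * h) = ρ g (c h) + c g) ∧
        IsLevelConstant₁ (localGaloisToGlobal q) c}.Finite := by
  classical
  -- the characteristic
  obtain ⟨ℓ, hℓchar⟩ := CharP.exists k
  haveI := hℓchar
  have hℓ : ℓ.Prime :=
    (CharP.char_is_prime_or_zero k ℓ).resolve_right (CharP.char_ne_zero_of_finite k ℓ)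
  haveI : NeZero ℓ := ⟨hℓ.ne_zero⟩
  haveI : Fact ℓ.Prime := ⟨hℓ⟩
  haveI : NeZero (ℓ : Qbar) := ⟨by exact_mod_cast hℓ.ne_zero⟩
  obtain ⟨ζ₀, hζ₀⟩ := HasEnoughRootsOfUnity.exists_primitiveRoot Qbar ℓ
  haveI : FiniteDimensional ℚ ℚ⟮ζ₀⟯ :=
    IntermediateField.adjoin.finiteDimensional
      ((AlgebraicClosure.isAlgebraic ℚ).isAlgebraic ζ₀).isIntegral
  set F : IntermediateField ℚ Qbar := F0 ⊔ ℚ⟮ζ₀⟯ with hF
  haveI : FiniteDimensional ℚ F := IntermediateField.finiteDimensional_sup F0 ℚ⟮ζ₀⟯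
  have hζF : ζ₀ ∈ F := (le_sup_right : ℚ⟮ζ₀⟯ ≤ F) (IntermediateField.mem_adjoin_simple_self ℚ ζ₀)
  have hρF : ∀ u ∈ lvl q F, ρ u = 1 := fun u hu =>
    hρ u (IntermediateField.fixingSubgroup_antitone (le_sup_left : F0 ≤ F) hu)
  have hX := finite_contChar q ℓ hℓ F hζ₀ hζF
  -- `M` as a `ZMod ℓ`-space
  haveI : Finite M := Module.finite_of_finite k
  obtain ⟨n, co, hco⟩ := @exists_coords ℓ _ M _ (AddCommGroup.zmodModule (n := ℓ) (by
    intro x
    rw [← Nat.cast_smul_eq_nsmul k ℓ x, CharP.cast_eq_zero k ℓ, zero_smul])) _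
  have hY := finite_of_coords_finite (V := ↥(lvl q F)) (fun m i => co m i) hco _ hX
  refine finite_of_restrict_finite (lvl q F) (fun g m => ρ g m) _ ?_ _ hY ?_
  · rintro c ⟨hc, -⟩ g u -
    exact hc g u
  · rintro c ⟨hc, F', hF', hlev⟩ i
    have hc1 : c 1 = 0 := by
      have := hc 1 1
      rw [mul_one] at this
      have h1 : ρ 1 = 1 := hρF 1 (Subgroup.one_mem _)
      rw [h1, Module.End.one_apply] at this
      exact left_eq_add.1 this
    refine ⟨fun u v => ?_, F', hF', fun u hu => ?_⟩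
    · show co (c ((u * v : lvl q F) : PadicAlgCl q ≃ₐ[ℚ_[q]] PadicAlgCl q)) i =
        co (c u) i + co (c v) i
      rw [Subgroup.coe_mul, hc, hρF u u.2, Module.End.one_apply, map_add, Pi.add_apply,
        add_comm]
    · show co (c u) i = 0
      have h2 := hlev 1 u hu
      rw [one_mul, hc1] at h2
      rw [h2, map_zero, Pi.zero_apply]

end cocycles

section final

/-- **Package GW-FIN-loc.** -/
theorem stmt_fin_loc : Stmt_fin_loc := by
  intro k _ _ M _ hsm q
  haveI : Fact (q : ℕ).Prime := ⟨q.2⟩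
  obtain ⟨F0, hF0fd, hF0n, hF0⟩ := exists_field_trivial M hsm
  haveI := hF0fd
  have hS := finite_levelCocycles (q : ℕ) k M
    (fun g => M.ρ (localGaloisToGlobal (q : ℕ) g)) F0 (fun u hu => hF0 _ hu)
  have hfinZ : Finite ↥(levelCocycles₁ (primeLocalToGlobal q) (locRep M q)) := by
    haveI := hS.to_subtype
    refine Finite.of_injective
      (fun c => (⟨fun g => (c : cocycles₁ (locRep M q)) g, ?_, ?_⟩ :
        ↥{c : (PadicAlgCl (q : ℕ) ≃ₐ[ℚ_[(q : ℕ)]] PadicAlgCl (q : ℕ)) → M |
          (∀ g h, c (g * h) = M.ρ (localGaloisToGlobal (q : ℕ) g) (c h) + c g) ∧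
            IsLevelConstant₁ (localGaloisToGlobal (q : ℕ)) c})) ?_
    · intro g h
      exact cocycle_mul (c : cocycles₁ (locRep M q)) g h
    · exact c.2
    · intro c c' h
      have h1 : ∀ g, (c : cocycles₁ (locRep M q)) g = (c' : cocycles₁ (locRep M q)) g :=
        fun g => congrFun (congrArg Subtype.val h) g
      apply Subtype.ext
      apply Subtype.ext
      funext g
      exact h1 g
  haveI := hfinZ
  haveI : Module.Finite k ↥(levelCocycles₁ (primeLocalToGlobal q) (locRep M q)) :=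
    Module.Finite.of_finite
  exact Module.Finite.map _ _

end final

end Fermat.Agent.S56.H9
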