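import Fermat.Agent.S56.GW.H9_PerfKummer

/-!
# S56, package GW-PERF: tame local duality in cup product form (helper9)

`stmt_PERF_cup : Stmt_PERF_cup`.  For `q ≡ 1 mod p` and `M` unramified at `q`: a continuous
1-cocycle `y` of `M' = M*(1)` on `G_q` whose cup product with every continuous 1-cocycle of `M`
is a continuous coboundary, is a coboundary.
-/

set_option autoImplicit false
set_option linter.unusedSectionVars false
set_option linter.style.haveILetI false

namespace Fermat.Agent.S56.H9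

open NumberField CategoryTheory groupCohomology ExtCitation
open Fermat.Agent.Lib.LocalKummer

local notation "Qbar" => AlgebraicClosure ℚ

open Fermat.Agent.Lib.Minkowski in
attribute [local instance] qbar_isAlgebraic qbar_isAlgClosure qbar_isGalois qbar_normal

/-- A finite normal extension containing a given finite extension and finitely many elements. -/
theorem exists_normal_field (E : IntermediateField ℚ Qbar) [FiniteDimensional ℚ E]
    (T : Finset Qbar) :
    ∃ F : IntermediateField ℚ Qbar, FiniteDimensional ℚ F ∧ Normal ℚ F ∧ E ≤ F ∧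
      ∀ x ∈ T, x ∈ F := by
  classical
  let E₁ : IntermediateField ℚ Qbar := IntermediateField.adjoin ℚ (T : Set Qbar)
  haveI : FiniteDimensional ℚ E₁ := by
    haveI : Finite (T : Set Qbar) := T.finite_toSet
    exact IntermediateField.finiteDimensional_adjoin
      (fun x _ => Algebra.IsIntegral.isIntegral x)
  let F1 : IntermediateField ℚ Qbar := E ⊔ E₁
  haveI : FiniteDimensional ℚ F1 := IntermediateField.finiteDimensional_sup E E₁
  let F : IntermediateField ℚ Qbar := IntermediateField.normalClosure ℚ F1 Qbar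
  have hfd : FiniteDimensional ℚ F := inferInstance
  have hn : Normal ℚ F := normalClosure.normal ℚ F1 Qbar
  have h1 : F1 ≤ F := F1.le_normalClosure
  refine ⟨F, hfd, hn, le_sup_left.trans h1, fun x hx => ?_⟩
  exact h1 (le_sup_right (a := E) (IntermediateField.subset_adjoin ℚ (T : Set Qbar) hx))

/-- Powers of the order of `Gal(F₀/ℚ)` act trivially on a representation of level `F₀`. -/
lemma rho_pow_card_eq_one {k : Type} [Field k] (M : Rep.{0} k GQ)
    (F₀ : IntermediateField ℚ Qbar) [FiniteDimensional ℚ F₀] [Normal ℚ F₀]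
    (hF₀ : ∀ s ∈ F₀.fixingSubgroup, M.ρ s = 1) (s : GQ) :
    M.ρ s ^ Nat.card (F₀ ≃ₐ[ℚ] F₀) = 1 := by
  rw [← map_pow]
  apply hF₀
  have h1 : AlgEquiv.restrictNormalHom F₀ (s ^ Nat.card (F₀ ≃ₐ[ℚ] F₀)) = 1 := by
    rw [map_pow]
    exact pow_card_eq_one'
  have h2 : s ^ Nat.card (F₀ ≃ₐ[ℚ] F₀) ∈ (AlgEquiv.restrictNormalHom (F := ℚ) (K₁ := Qbar) F₀).ker :=
    MonoidHom.mem_ker.2 h1
  exact (Subgroup.ext_iff.1 (@IntermediateField.restrictNormalHom_ker ℚ Qbar _ _ _ F₀ ‹_›) _).1 h2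

theorem stmt_PERF_cup : Stmt_PERF_cup := by
  intro p _ hp2 k _ _ _ M _ hsm q hq1 hur y hy hall
  classical
  have hp : p.Prime := Fact.out
  haveI : NeZero p := ⟨hp.ne_zero⟩
  have hχ : ∀ g : Gq q, cycloK p k (rq q g) = 1 := fun g => cycloK_rq_eq_one p k hq1 g
  obtain ⟨F₀, hF₀fd, hF₀n, hF₀⟩ := exists_field_trivial M hsm
  obtain ⟨hyc, Ey, hEyfd, hyE⟩ := hy
  haveI := hF₀fd
  haveI := hF₀n
  haveI := hEyfd
  -- the numbers
  set e₀ := Nat.card (F₀ ≃ₐ[ℚ] F₀) with he₀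
  have he₀pos : 0 < e₀ := Nat.card_pos
  set t := e₀ * p with ht
  have htpos : 0 < t := Nat.mul_pos he₀pos hp.pos
  have hq2 : 2 ≤ (q : ℕ) := q.2.two_le
  have hn0 : (q : ℕ) ^ t - 1 ≠ 0 := by
    have : 2 ≤ (q : ℕ) ^ t :=
      hq2.trans (by calc (q : ℕ) = (q : ℕ) ^ 1 := (pow_one _).symm
        _ ≤ (q : ℕ) ^ t := Nat.pow_le_pow_right (by omega) htpos)
    omega
  -- the elements
  haveI : NeZero (((q : ℕ) ^ t - 1 : ℕ) : Qbar) := ⟨Nat.cast_ne_zero.2 hn0⟩
  haveI : NeZero (p : Qbar) := ⟨Nat.cast_ne_zero.2 hp.ne_zero⟩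
  obtain ⟨z, hz⟩ := HasEnoughRootsOfUnity.exists_primitiveRoot Qbar ((q : ℕ) ^ t - 1)
  obtain ⟨ζ, hζ⟩ := HasEnoughRootsOfUnity.exists_primitiveRoot Qbar p
  obtain ⟨π, hπ⟩ := IsAlgClosed.exists_pow_nat_eq (((q : ℕ) : Qbar)) hp.pos
  -- the first level
  haveI : FiniteDimensional ℚ (F₀ ⊔ Ey : IntermediateField ℚ Qbar) :=
    IntermediateField.finiteDimensional_sup F₀ Ey
  obtain ⟨F', hF'fd, hF'n, hF'le, hF'mem⟩ := exists_normal_field (F₀ ⊔ Ey) {z, ζ, π}
  haveI := hF'fd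
  haveI := hF'n
  haveI : NumberField F' :=
    { to_charZero := inferInstance, to_finiteDimensional := inferInstance }
  have hzF' : z ∈ F' := hF'mem z (by simp)
  have hζF' : ζ ∈ F' := hF'mem ζ (by simp)
  have hπF' : π ∈ F' := hF'mem π (by simp)
  have hF₀F' : F₀ ≤ F' := le_sup_left.trans hF'le
  have hEyF' : Ey ≤ F' := le_sup_right.trans hF'le
  -- the representations and the pairing
  let ρ : Representation k (Gq q) M := M.ρ.comp (rq q)
  let ρ' : Representation k (Gq q) (tateDual p M) := (tateDual p M).ρ.comp (rq q)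
  let B : M →ₗ[k] (tateDual p M) →ₗ[k] k := Module.Dual.eval k M
  have hBev : ∀ (a : M) (l : tateDual p M), B a l = evT p M a l := fun _ _ => rfl
  have hnd : ∀ l : tateDual p M, l ≠ 0 → ∃ a : M, B a l ≠ 0 := by
    intro l hl
    by_contra hcon
    push Not at hcon
    apply hl
    exact LinearMap.ext fun a => hcon a
  have hρ'apply : ∀ (g : Gq q) (b : tateDual p M) (a : M),
      B a (ρ' g b) = B (M.ρ (rq q g)⁻¹ a) b := by
    intro g b a
    show ((tateDual p M).ρ (rq q g) b) a = _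
    rw [H47.tateDual_ρ_apply, hχ g, Units.val_one, one_smul]
    rfl
  have hB : ∀ g a b, B (ρ g a) (ρ' g b) = B a b := by
    intro g a b
    rw [hρ'apply]
    show B (M.ρ (rq q g)⁻¹ (M.ρ (rq q g) a)) b = B a b
    rw [← Module.End.mul_apply, ← map_mul, inv_mul_cancel, map_one]
    rfl
  have hann : ∀ (ψ : Gq q) (l : tateDual p M), (∀ a : M, ρ ψ a = a → B a l = 0) →
      ∃ b : tateDual p M, l = ρ' ψ b - b := by
    intro ψ l hl
    let T : M →ₗ[k] M := M.ρ (rq q ψ)⁻¹ - 1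
    have hker : (l : Module.Dual k M) ∈ (LinearMap.ker T).dualAnnihilator := by
      rw [Submodule.mem_dualAnnihilator]
      intro a ha
      have ha' : M.ρ (rq q ψ)⁻¹ a - a = 0 := ha
      have ha2 : M.ρ (rq q ψ)⁻¹ a = a := sub_eq_zero.1 ha'
      have ha3 : ρ ψ a = a := by
        show M.ρ (rq q ψ) a = a
        conv_lhs => rw [← ha2]
        rw [← Module.End.mul_apply, ← map_mul, mul_inv_cancel, map_one]
        rfl
      exact hl a ha3
    rw [← LinearMap.range_dualMap_eq_dualAnnihilator_ker] at hker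
    obtain ⟨b, hb⟩ := hker
    refine ⟨b, ?_⟩
    refine LinearMap.ext fun a => ?_
    have h1 : (l : Module.Dual k M) a = (T.dualMap b) a := by rw [hb]
    rw [h1]
    show b (T a) = B a (ρ' ψ b - b)
    rw [map_sub, hρ'apply]
    show b (M.ρ (rq q ψ)⁻¹ a - a) = b (M.ρ (rq q ψ)⁻¹ a) - b a
    rw [map_sub]
  -- tame data at the first level
  obtain ⟨P', φ', τ₀', a', hT', -⟩ := tameData_level (q := q) F'
  have hdiv : ∀ c : ℕ, φ' ^ c ∈ inertiaF q F' → t ∣ c := fun c hc =>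
    dvd_of_pow_mem_inertiaF F' htpos hz hzF' hT'.hnorm hT'.hgen hc
  have hF'triv : ∀ s ∈ F'.fixingSubgroup, M.ρ s = 1 := fun s hs =>
    hF₀ s (IntermediateField.fixingSubgroup_antitone hF₀F' hs)
  have hρI' : ∀ i ∈ inertiaF q F', ρ i = 1 := fun i hi =>
    rho_eq_one_of_mem_inertiaF M hur F' hF'triv hi
  have hpk : ((p : ℕ) : k) = 0 := CharP.cast_eq_zero k p
  have hφe : ρ φ' ^ e₀ = 1 := rho_pow_card_eq_one M F₀ hF₀ (rq q φ')
  have hN : ∀ (a : M) (c : ℕ), φ' ^ c ∈ inertiaF q F' → normSum ρ φ' a c = 0 := fun a c hc =>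
    normSum_eq_zero ρ φ' hφe hpk (hdiv c hc) a
  have hX : ∀ a : M, ∃ x : Gq q → M, IsCoc ρ x ∧ (∀ i ∈ inertiaF q F', x i = 0) ∧ x φ' = a :=
    fun a => exists_unram_cocycle hT'.hnorm hT'.hgen hρI' a (hN a)
  choose X₁ hX₁ using hX
  -- the Kummer character
  let κ : Gq q → k := fun g => (ZMod.castHom (dvd_refl p) k : ZMod p →+* k) (kummerQ hζ hπ g)
  have hκ : ∀ g h, κ (g * h) = κ g + κ h := by
    intro g h
    show (ZMod.castHom (dvd_refl p) k : ZMod p →+* k) (kummerQ hζ hπ (g * h)) = _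
    rw [kummerQ_mul hp hq1 hζ hπ g h, map_add]
  have hκfix : ∀ u : Gq q, rq q u π = π → κ u = 0 := by
    intro u hu
    show (ZMod.castHom (dvd_refl p) k : ZMod p →+* k) (kummerQ hζ hπ u) = 0
    rw [(kummerQ_eq_zero_iff hζ hπ u).2 hu, map_zero]
  -- the cup products are coboundaries
  have h₁ : ∀ a : M, ∃ (E : IntermediateField ℚ Qbar) (f : Gq q → k), FiniteDimensional ℚ E ∧
      (∀ g s : Gq q, rq q s ∈ E.fixingSubgroup → f (g * s) = f g) ∧
      ∀ g h, B (X₁ a g) (ρ' g (y h)) = f h - f (g * h) + f g := by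
    intro a
    obtain ⟨hxc, hxI, -⟩ := hX₁ a
    have hloc : IsLocZ1 M q (X₁ a) := by
      refine ⟨fun g h => hxc g h, F', hF'fd, fun g s hs => ?_⟩
      have hsI : s ∈ inertiaF q F' := hT'.hPI (hT'.hUP hs)
      rw [hxc g s, hxI s hsI, map_zero, zero_add]
    obtain ⟨f, ⟨E, hE, hfE⟩, hf⟩ := hall (X₁ a) hloc
    refine ⟨E, f, hE, hfE, fun g h => ?_⟩
    have h1 := hf g h
    rw [hχ g, Units.val_one, one_mul] at h1
    exact h1
  choose E₁ f₁ hE₁ hf₁U hf₁ using h₁
  have h₂ : ∀ a : M, ∃ (E : IntermediateField ℚ Qbar) (f : Gq q → k), FiniteDimensional ℚ E ∧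
      ((∀ g, ρ g a = a) → (∀ g s : Gq q, rq q s ∈ E.fixingSubgroup → f (g * s) = f g) ∧
      ∀ g h, B (κ g • a) (ρ' g (y h)) = f h - f (g * h) + f g) := by
    intro a
    by_cases ha : ∀ g, ρ g a = a
    · have hloc : IsLocZ1 M q (fun g => κ g • a) := by
        refine ⟨fun g h => ?_, F', hF'fd, fun g s hs => ?_⟩
        · show κ (g * h) • a = M.ρ (rq q g) (κ h • a) + κ g • a
          rw [hκ, map_smul, add_smul, add_comm]
          congr 2
          exact (ha g).symm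
        · show κ (g * s) • a = κ g • a
          have hsπ : rq q s π = π :=
            (IntermediateField.mem_fixingSubgroup_iff F' (rq q s)).1 hs π hπF'
          rw [hκ, hκfix s hsπ, add_zero]
      obtain ⟨f, ⟨E, hE, hfE⟩, hf⟩ := hall _ hloc
      refine ⟨E, f, hE, fun _ => ⟨hfE, fun g h => ?_⟩⟩
      have h1 := hf g h
      rw [hχ g, Units.val_one, one_mul] at h1
      exact h1
    · exact ⟨⊥, 0, inferInstance, fun h => absurd h ha⟩
  choose E₂ f₂ hE₂ hf₂ using h₂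
  -- the second level
  haveI : Finite M := Module.finite_of_finite k
  haveI : ∀ a, FiniteDimensional ℚ (E₁ a) := hE₁
  haveI : ∀ a, FiniteDimensional ℚ (E₂ a) := hE₂
  haveI hfd1 : FiniteDimensional ℚ (⨆ a, E₁ a : IntermediateField ℚ Qbar) :=
    IntermediateField.finiteDimensional_iSup_of_finite
  haveI hfd2 : FiniteDimensional ℚ (⨆ a, E₂ a : IntermediateField ℚ Qbar) :=
    IntermediateField.finiteDimensional_iSup_of_finite
  haveI hfd3 : FiniteDimensional ℚ ((⨆ a, E₁ a) ⊔ (⨆ a, E₂ a) : IntermediateField ℚ Qbar) :=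
    IntermediateField.finiteDimensional_sup _ _
  haveI hfd4 : FiniteDimensional ℚ
      (F' ⊔ ((⨆ a, E₁ a) ⊔ (⨆ a, E₂ a)) : IntermediateField ℚ Qbar) :=
    IntermediateField.finiteDimensional_sup _ _
  obtain ⟨F'', hF''fd, hF''n, hF''le, -⟩ :=
    exists_normal_field (F' ⊔ ((⨆ a, E₁ a) ⊔ (⨆ a, E₂ a))) ∅
  haveI := hF''fd
  haveI := hF''n
  haveI : NumberField F'' :=
    { to_charZero := inferInstance, to_finiteDimensional := inferInstance }
  have hF'F'' : F' ≤ F'' := le_sup_left.trans hF''le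
  have hE₁F'' : ∀ a, E₁ a ≤ F'' := fun a =>
    (le_iSup E₁ a).trans (le_sup_left.trans (le_sup_right.trans hF''le))
  have hE₂F'' : ∀ a, E₂ a ≤ F'' := fun a =>
    (le_iSup E₂ a).trans (le_sup_right.trans (le_sup_right.trans hF''le))
  obtain ⟨P, φ, τ₀, a, hT, -⟩ := tameData_level (q := q) F''
  have hqk : (((q : ℕ) : ℕ) : k) = 1 := by
    rw [CharP.cast_eq_mod k p, hq1, Nat.cast_one]
  have hq0 : (((q : ℕ) : ℕ) : k) ≠ 0 := by
    rw [hqk]
    exact one_ne_zero
  have hm : ((((q : ℕ) ^ a : ℕ)) : k) = 1 := by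
    rw [Nat.cast_pow, hqk, one_pow]
  have hF''triv : ∀ s ∈ F''.fixingSubgroup, M.ρ s = 1 := fun s hs =>
    hF'triv s (IntermediateField.fixingSubgroup_antitone hF'F'' hs)
  have hρI : ∀ i ∈ inertiaF q F'', ρ i = 1 := fun i hi =>
    rho_eq_one_of_mem_inertiaF M hur F'' hF''triv hi
  have hρ'I : ∀ i ∈ inertiaF q F'', ρ' i = 1 := fun i hi =>
    H47.tateDual_ρ_eq_one p M (rq q i) (hρI i hi) (hχ i)
  have hyU : ∀ g, ∀ u ∈ levelSubgroup q F'', y (g * u) = y g := fun g u hu =>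
    hyE g u (IntermediateField.fixingSubgroup_antitone (hEyF'.trans hF'F'') hu)
  have hpdiv : ∀ c : ℕ, φ' ^ c ∈ inertiaF q F' → p ∣ c := fun c hc =>
    (Dvd.intro_left e₀ rfl).trans (hdiv c hc)
  have hκU : ∀ u ∈ levelSubgroup q F'', κ u = 0 := fun u hu =>
    hκfix u ((IntermediateField.mem_fixingSubgroup_iff F'' (rq q u)).1 hu π (hF'F'' hπF'))
  have hκram : ∃ i ∈ inertiaF q F'', κ i ≠ 0 := by
    obtain ⟨i, hi, hne⟩ := kummerQ_ramified hp hq1 hζ hπ F'' (hF'F'' hζF') (hF'F'' hπF')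
    refine ⟨i, hi, fun h0 => hne ?_⟩
    have hinj : Function.Injective (ZMod.castHom (dvd_refl p) k : ZMod p →+* k) :=
      RingHom.injective _
    exact hinj (h0.trans (map_zero _).symm)
  exact perf_abstract p hp2 hT hq0 hm ρ ρ' B hB hnd hann hρI hρ'I (fun g h => hyc g h) hyU
    (inertiaF_anti hF'F'') hT'.hnorm hT'.hgen hpdiv X₁ hX₁
    (fun a => ⟨f₁ a, fun g u hu => hf₁U a g u
      (IntermediateField.fixingSubgroup_antitone (hE₁F'' a) hu), hf₁ a⟩)
    κ hκ hκU hκram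
    (fun a ha => ⟨f₂ a, fun g u hu => (hf₂ a ha).1 g u
      (IntermediateField.fixingSubgroup_antitone (hE₂F'' a) hu), (hf₂ a ha).2⟩)

end Fermat.Agent.S56.H9
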