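import Mathlib

/-!
# S56, package GW-PERF: the abstract tame duality argument (helper9)

Pure group theory and linear algebra.  `G` is a group with tame data at a level `U`
(`U ≤ P ≤ I`, `G = ⟨φ⟩ I`, `I = ⟨τ₀⟩ P`, `P / U` a `q`-group, `φ τ₀ φ⁻¹ ∈ τ₀ ^ m P`), acting on
`M`, `M'` trivially on `I`.

* `pairing_symm` : if `x ∪ y = d f` with `x`, `y`, `f` of level `U`, then
  `⟨x φ, y τ₀⟩ = ⟨x τ₀, y φ⟩`.
* `exists_unram_cocycle` : unramified cocycles with prescribed value at `φ'`.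
* `perf_abstract` : if `x ∪ y` is a coboundary for enough cocycles `x` (the unramified ones and
  the multiples of a ramified character), then `y` is a coboundary.
-/

set_option autoImplicit false
set_option linter.unusedSectionVars false
set_option linter.style.haveILetI false

namespace Fermat.Agent.S56.H9

section abs

variable {k : Type*} [Field k] {G : Type*} [Group G]
variable {M : Type*} [AddCommGroup M] [Module k M]
variable {M' : Type*} [AddCommGroup M'] [Module k M']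

/-- Function-level 1-cocycles (convention of `IsLocZ1`). -/
def IsCoc (ρ : Representation k G M) (x : G → M) : Prop :=
  ∀ g h : G, x (g * h) = ρ g (x h) + x g

namespace IsCoc

variable {ρ : Representation k G M} {x : G → M}

lemma map_one (hx : IsCoc ρ x) : x 1 = 0 := by
  have h := hx 1 1
  rw [mul_one, _root_.map_one] at h
  have h' : x 1 = x 1 + x 1 := h
  have h2 : x 1 + 0 = x 1 + x 1 := by rw [add_zero]; exact h'
  exact (add_left_cancel h2).symm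

lemma mul_of_triv (hx : IsCoc ρ x) {g : G} (hg : ρ g = 1) (h : G) :
    x (g * h) = x h + x g := by
  rw [hx g h, hg]
  rfl

lemma pow_of_triv (hx : IsCoc ρ x) {g : G} (hg : ρ g = 1) (n : ℕ) :
    x (g ^ n) = (n : k) • x g := by
  induction n with
  | zero => simp [hx.map_one]
  | succ n ih =>
    rw [pow_succ', hx.mul_of_triv hg, ih, Nat.cast_succ, add_smul, one_smul]

lemma inv (hx : IsCoc ρ x) (g : G) : ρ g (x g⁻¹) = - x g := by
  have h := hx g g⁻¹
  rw [mul_inv_cancel, hx.map_one] at h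
  exact eq_neg_of_add_eq_zero_left h.symm

lemma conj (hx : IsCoc ρ x) {t : G} (ht : ρ t = 1) (φ : G) :
    x (φ * t * φ⁻¹) = ρ φ (x t) := by
  rw [mul_assoc, hx φ, hx.mul_of_triv ht, map_add, hx.inv]
  abel

lemma pow_cob (hx : IsCoc ρ x) {g : G} {a : M} (h : x g = ρ g a - a) (n : ℕ) :
    x (g ^ n) = ρ (g ^ n) a - a := by
  induction n with
  | zero => simp [hx.map_one]
  | succ n ih =>
    rw [pow_succ', hx g, ih, h, map_sub, map_mul]
    simp only [Module.End.mul_apply]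
    abel

end IsCoc

/-- Tame data at the level `U`. -/
structure TameData (U I P : Subgroup G) (φ τ₀ : G) (q m : ℕ) : Prop where
  hUP : U ≤ P
  hPI : P ≤ I
  hτ : τ₀ ∈ I
  hnorm : ∀ g : G, ∀ i ∈ I, g * i * g⁻¹ ∈ I
  hgen : ∀ g : G, ∃ n : ℕ, ∃ i ∈ I, g = φ ^ n * i
  hcyc : ∀ i ∈ I, ∃ n : ℕ, ∃ x ∈ P, i = τ₀ ^ n * x
  hP : ∀ x ∈ P, ∃ e : ℕ, x ^ (q ^ e) ∈ U
  hconj : ∃ x ∈ P, φ * τ₀ * φ⁻¹ = τ₀ ^ m * x

section tame

variable {U I P : Subgroup G} {φ τ₀ : G} {q m : ℕ}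
variable {ρ : Representation k G M} {x : G → M}

lemma IsCoc.eq_zero_of_mem_level (hx : IsCoc ρ x) (hxU : ∀ g, ∀ u ∈ U, x (g * u) = x g)
    {u : G} (hu : u ∈ U) : x u = 0 := by
  have h := hxU 1 u hu
  rwa [one_mul, hx.map_one] at h

lemma IsCoc.eq_zero_of_mem_wild (hT : TameData U I P φ τ₀ q m) (hq : (q : k) ≠ 0)
    (hρ : ∀ i ∈ I, ρ i = 1) (hx : IsCoc ρ x) (hxU : ∀ g, ∀ u ∈ U, x (g * u) = x g)
    {a : G} (ha : a ∈ P) : x a = 0 := by
  obtain ⟨e, he⟩ := hT.hP a ha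
  have h1 := hx.pow_of_triv (hρ a (hT.hPI ha)) (q ^ e)
  rw [hx.eq_zero_of_mem_level hxU he] at h1
  have hne : ((q ^ e : ℕ) : k) ≠ 0 := by
    rw [Nat.cast_pow]
    exact pow_ne_zero _ hq
  exact (smul_eq_zero.1 h1.symm).resolve_left hne

lemma IsCoc.apply_tame (hT : TameData U I P φ τ₀ q m) (hq : (q : k) ≠ 0)
    (hρ : ∀ i ∈ I, ρ i = 1) (hx : IsCoc ρ x) (hxU : ∀ g, ∀ u ∈ U, x (g * u) = x g)
    (n : ℕ) {a : G} (ha : a ∈ P) : x (τ₀ ^ n * a) = (n : k) • x τ₀ := by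
  have hτn : ρ (τ₀ ^ n) = 1 := by rw [map_pow, hρ τ₀ hT.hτ, one_pow]
  rw [hx.mul_of_triv hτn, hx.eq_zero_of_mem_wild hT hq hρ hxU ha, zero_add,
    hx.pow_of_triv (hρ τ₀ hT.hτ)]

lemma IsCoc.eq_zero_of_mem_inertia (hT : TameData U I P φ τ₀ q m) (hq : (q : k) ≠ 0)
    (hρ : ∀ i ∈ I, ρ i = 1) (hx : IsCoc ρ x) (hxU : ∀ g, ∀ u ∈ U, x (g * u) = x g)
    (h0 : x τ₀ = 0) {i : G} (hi : i ∈ I) : x i = 0 := by
  obtain ⟨n, a, ha, rfl⟩ := hT.hcyc i hi
  rw [hx.apply_tame hT hq hρ hxU n ha, h0, smul_zero]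

lemma IsCoc.frob_fix (hT : TameData U I P φ τ₀ q m) (hq : (q : k) ≠ 0) (hm : (m : k) = 1)
    (hρ : ∀ i ∈ I, ρ i = 1) (hx : IsCoc ρ x) (hxU : ∀ g, ∀ u ∈ U, x (g * u) = x g) :
    ρ φ (x τ₀) = x τ₀ := by
  obtain ⟨a, ha, hconj⟩ := hT.hconj
  rw [← hx.conj (hρ τ₀ hT.hτ) φ, hconj, hx.apply_tame hT hq hρ hxU m ha, hm, one_smul]

lemma apply_eq_of_fix (hT : TameData U I P φ τ₀ q m) (hρ : ∀ i ∈ I, ρ i = 1) {a : M}
    (ha : ρ φ a = a) (g : G) : ρ g a = a := by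
  obtain ⟨n, i, hi, rfl⟩ := hT.hgen g
  rw [map_mul, map_pow, hρ i hi, mul_one]
  induction n with
  | zero => simp
  | succ n ih => rw [pow_succ, Module.End.mul_apply, ha, ih]

/-- A cocycle of level `U` which vanishes at `τ₀` and is a coboundary at `φ` is a coboundary. -/
lemma IsCoc.eq_cob (hT : TameData U I P φ τ₀ q m) (hq : (q : k) ≠ 0)
    (hρ : ∀ i ∈ I, ρ i = 1) (hx : IsCoc ρ x) (hxU : ∀ g, ∀ u ∈ U, x (g * u) = x g)
    (h0 : x τ₀ = 0) {a : M} (ha : x φ = ρ φ a - a) (g : G) : x g = ρ g a - a := by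
  obtain ⟨n, i, hi, rfl⟩ := hT.hgen g
  rw [hx (φ ^ n) i, hx.eq_zero_of_mem_inertia hT hq hρ hxU h0 hi, map_zero, zero_add,
    hx.pow_cob ha n, map_mul, hρ i hi, mul_one]

end tame

section symm

variable {U I P : Subgroup G} {φ τ₀ : G} {q m : ℕ}

lemma sum_range_cast_eq_zero {m : ℕ} (hm : (m : k) = 1) (h2 : (2 : k) ≠ 0) :
    ((∑ i ∈ Finset.range m, i : ℕ) : k) = 0 := by
  have h := Finset.sum_range_id_mul_two m
  have h1 : (((∑ i ∈ Finset.range m, i) * 2 : ℕ) : k) = ((m * (m - 1) : ℕ) : k) := by rw [h]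
  have hm0 : m ≠ 0 := by
    rintro rfl
    rw [Nat.cast_zero] at hm
    exact zero_ne_one hm
  have hm1 : ((m - 1 : ℕ) : k) = 0 := by
    rw [Nat.cast_sub (Nat.one_le_iff_ne_zero.2 hm0), hm, Nat.cast_one, sub_self]
  rw [Nat.cast_mul, Nat.cast_mul, hm1, mul_zero, Nat.cast_two] at h1
  exact (mul_eq_zero.1 h1).resolve_right h2

/-- **The symmetry relation.** -/
theorem pairing_symm (hT : TameData U I P φ τ₀ q m) (hq : (q : k) ≠ 0) (hm : (m : k) = 1)
    (h2 : (2 : k) ≠ 0)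
    (ρ : Representation k G M) (ρ' : Representation k G M') (B : M →ₗ[k] M' →ₗ[k] k)
    (hρ : ∀ i ∈ I, ρ i = 1) (hρ' : ∀ i ∈ I, ρ' i = 1)
    {x : G → M} {y : G → M'} (hx : IsCoc ρ x) (hy : IsCoc ρ' y)
    (hxU : ∀ g, ∀ u ∈ U, x (g * u) = x g) (hyU : ∀ g, ∀ u ∈ U, y (g * u) = y g)
    {f : G → k} (hfU : ∀ g, ∀ u ∈ U, f (g * u) = f g)
    (hf : ∀ g h, B (x g) (ρ' g (y h)) = f h - f (g * h) + f g) :
    B (x φ) (y τ₀) = B (x τ₀) (y φ) := by
  -- the general product formula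
  have hmul : ∀ g h, f (g * h) = f g + f h - B (x g) (ρ' g (y h)) := by
    intro g h
    rw [hf g h]
    ring
  have hmulI : ∀ g ∈ I, ∀ h, f (g * h) = f g + f h - B (x g) (y h) := by
    intro g hg h
    rw [hmul g h, hρ' g hg]
    rfl
  have hf1 : f 1 = 0 := by
    have h := hmul 1 1
    rw [mul_one, hx.map_one, map_zero, LinearMap.zero_apply] at h
    linear_combination (-1 : k) * h
  have hfUz : ∀ u ∈ U, f u = 0 := by
    intro u hu
    have h := hfU 1 u hu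
    rwa [one_mul, hf1] at h
  -- `f` vanishes on `P`
  have hxP : ∀ a ∈ P, x a = 0 := fun a ha => hx.eq_zero_of_mem_wild hT hq hρ hxU ha
  have hyP : ∀ a ∈ P, y a = 0 := fun a ha => hy.eq_zero_of_mem_wild hT hq hρ' hyU ha
  have hfPmul : ∀ a ∈ P, ∀ h, f (a * h) = f a + f h := by
    intro a ha h
    rw [hmulI a (hT.hPI ha) h, hxP a ha, map_zero, LinearMap.zero_apply, sub_zero]
  have hfPpow : ∀ a ∈ P, ∀ n : ℕ, f (a ^ n) = (n : k) * f a := by
    intro a ha n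
    induction n with
    | zero => simp [hf1]
    | succ n ih =>
      rw [pow_succ', hfPmul a ha, ih, Nat.cast_succ]
      ring
  have hfP : ∀ a ∈ P, f a = 0 := by
    intro a ha
    obtain ⟨e, he⟩ := hT.hP a ha
    have h1 := hfPpow a ha (q ^ e)
    rw [hfUz _ he] at h1
    have hne : ((q ^ e : ℕ) : k) ≠ 0 := by
      rw [Nat.cast_pow]
      exact pow_ne_zero _ hq
    exact (mul_eq_zero.1 h1.symm).resolve_left hne
  -- `f` on the powers of `τ₀`
  have hτpow : ∀ n : ℕ, f (τ₀ ^ n) =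
      (n : k) * f τ₀ - ((∑ i ∈ Finset.range n, i : ℕ) : k) * B (x τ₀) (y τ₀) := by
    intro n
    induction n with
    | zero => simp [hf1]
    | succ n ih =>
      rw [pow_succ', hmulI τ₀ hT.hτ, ih, hy.pow_of_triv (hρ' τ₀ hT.hτ), map_smul,
        Finset.sum_range_succ, Nat.cast_add, Nat.cast_succ, smul_eq_mul]
      push_cast
      ring
  obtain ⟨a, ha, hconj⟩ := hT.hconj
  have hτm : f (τ₀ ^ m * a) = f τ₀ := by
    have hmem : τ₀ ^ m ∈ I := pow_mem hT.hτ m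
    rw [hmulI _ hmem, hfP a ha, hyP a ha, map_zero, hτpow m, hm,
      sum_range_cast_eq_zero hm h2]
    ring
  -- compare the two computations of `f (φ * τ₀)`
  have e1 : f (φ * τ₀) = f φ + f τ₀ - B (x φ) (y τ₀) := by
    rw [hmul φ τ₀, hy.frob_fix hT hq hm hρ' hyU]
  have e2 : f (φ * τ₀) = f τ₀ + f φ - B (x τ₀) (y φ) := by
    have h3 : φ * τ₀ = τ₀ ^ m * a * φ := by
      rw [← hconj]
      group
    have hmem : τ₀ ^ m * a ∈ I := mul_mem (pow_mem hT.hτ m) (hT.hPI ha)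
    rw [h3, hmulI _ hmem, hτm, hx.apply_tame hT hq hρ hxU m ha, hm, one_smul]
  linear_combination e1 - e2

end symm

section unram

variable (ρ : Representation k G M) (I' : Subgroup G) (φ' : G)

/-- The norm sums `N_c m = ∑_{j < c} φ'^j m`. -/
def normSum (m : M) (c : ℕ) : M := ∑ j ∈ Finset.range c, (ρ φ' ^ j) m

lemma normSum_zero (m : M) : normSum ρ φ' m 0 = 0 := by
  simp [normSum]

lemma normSum_add (m : M) (a b : ℕ) :
    normSum ρ φ' m (a + b) = normSum ρ φ' m a + (ρ φ' ^ a) (normSum ρ φ' m b) := by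
  unfold normSum
  rw [Finset.sum_range_add, map_sum]
  congr 1
  refine Finset.sum_congr rfl fun j _ => ?_
  rw [pow_add]
  rfl

lemma normSum_one (m : M) : normSum ρ φ' m 1 = m := by
  simp [normSum]

lemma normSum_mul_of_pow_eq_one {e : ℕ} (he : ρ φ' ^ e = 1) (m : M) (u : ℕ) :
    normSum ρ φ' m (e * u) = (u : k) • normSum ρ φ' m e := by
  induction u with
  | zero => simp [normSum_zero]
  | succ u ih =>
    rw [Nat.mul_succ, normSum_add, ih, pow_mul, he, one_pow, Nat.cast_succ, add_smul, one_smul]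
    rfl

/-- If `φ'^e` acts trivially and `c` is a multiple of `e u` with `u = 0` in `k`, then
`N_c = 0`. -/
lemma normSum_eq_zero {e u c : ℕ} (he : ρ φ' ^ e = 1) (hu : (u : k) = 0) (hc : e * u ∣ c)
    (m : M) : normSum ρ φ' m c = 0 := by
  obtain ⟨v, rfl⟩ := hc
  rw [mul_assoc, normSum_mul_of_pow_eq_one ρ φ' he, Nat.cast_mul, hu, zero_mul, zero_smul]

variable {ρ I' φ'}

/-- **Unramified cocycles.**  If `G = ⟨φ'⟩ I'`, `I'` is normal and acts trivially on `M`, and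
`N_c m = 0` whenever `φ'^c ∈ I'`, there is a cocycle vanishing on `I'` with value `m` at
`φ'`. -/
theorem exists_unram_cocycle
    (hnorm' : ∀ g : G, ∀ i ∈ I', g * i * g⁻¹ ∈ I')
    (hgen' : ∀ g : G, ∃ n : ℕ, ∃ i ∈ I', g = φ' ^ n * i)
    (hρ : ∀ i ∈ I', ρ i = 1) (m : M)
    (hN : ∀ c : ℕ, φ' ^ c ∈ I' → normSum ρ φ' m c = 0) :
    ∃ x : G → M, IsCoc ρ x ∧ (∀ i ∈ I', x i = 0) ∧ x φ' = m := by
  classical
  -- independence of the exponent
  have hwd : ∀ a b : ℕ, ∀ i ∈ I', ∀ j ∈ I', φ' ^ a * i = φ' ^ b * j →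
      normSum ρ φ' m a = normSum ρ φ' m b := by
    have key : ∀ a b : ℕ, a ≤ b → ∀ i ∈ I', ∀ j ∈ I', φ' ^ a * i = φ' ^ b * j →
        normSum ρ φ' m a = normSum ρ φ' m b := by
      intro a b hab i hi j hj h
      obtain ⟨c, rfl⟩ := Nat.exists_eq_add_of_le hab
      have h1 : φ' ^ c = i * j⁻¹ := by
        rw [pow_add, mul_assoc] at h
        have h2 := mul_left_cancel h
        rw [h2, mul_inv_cancel_right]
      have h3 : φ' ^ c ∈ I' := by
        rw [h1]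
        exact mul_mem hi (inv_mem hj)
      rw [normSum_add, hN c h3, map_zero, add_zero]
    intro a b i hi j hj h
    rcases le_total a b with hab | hab
    · exact key a b hab i hi j hj h
    · exact (key b a hab j hj i hi h.symm).symm
  let ν : G → ℕ := fun g => (hgen' g).choose
  have hν : ∀ g, ∃ i ∈ I', g = φ' ^ (ν g) * i := fun g => (hgen' g).choose_spec
  let x : G → M := fun g => normSum ρ φ' m (ν g)
  have hxval : ∀ (a : ℕ) (i : G), i ∈ I' → x (φ' ^ a * i) = normSum ρ φ' m a := by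
    intro a i hi
    obtain ⟨j, hj, hg⟩ := hν (φ' ^ a * i)
    exact hwd _ _ j hj i hi hg.symm
  refine ⟨x, ?_, ?_, ?_⟩
  · intro g h
    obtain ⟨i, hi, hg⟩ := hν g
    obtain ⟨j, hj, hh⟩ := hν h
    have e1 : g * h = φ' ^ (ν g + ν h) * ((φ' ^ (ν h))⁻¹ * i * (φ' ^ (ν h))⁻¹⁻¹ * j) := by
      conv_lhs => rw [hg, hh]
      rw [pow_add]
      group
    have hmem : (φ' ^ (ν h))⁻¹ * i * (φ' ^ (ν h))⁻¹⁻¹ * j ∈ I' :=
      mul_mem (hnorm' _ i hi) hj
    have hρg : ρ g = ρ φ' ^ (ν g) := by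
      conv_lhs => rw [hg]
      rw [map_mul, map_pow, hρ i hi, mul_one]
    rw [e1, hxval _ _ hmem, normSum_add, hρg, add_comm]
  · intro i hi
    have h := hxval 0 i hi
    rw [pow_zero, one_mul] at h
    rw [h, normSum_zero]
  · have h := hxval 1 1 (one_mem _)
    rw [pow_one, mul_one] at h
    rw [h, normSum_one]

end unram

section main

variable {U I P : Subgroup G} {φ τ₀ : G} {q m : ℕ}

/-- The exponent of `φ` relative to `φ'` is prime to `p`. -/
lemma not_dvd_exponent {p : ℕ} (hp : p.Prime) {I I' : Subgroup G} {φ φ' : G}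
    (hII' : I ≤ I')
    (hnorm' : ∀ g : G, ∀ i ∈ I', g * i * g⁻¹ ∈ I')
    (hgen : ∀ g : G, ∃ n : ℕ, ∃ i ∈ I, g = φ ^ n * i)
    (hT' : ∀ c : ℕ, φ' ^ c ∈ I' → p ∣ c)
    {j : ℕ} {i' : G} (hi' : i' ∈ I') (hφ : φ = φ' ^ j * i') : ¬ p ∣ j := by
  intro hpj
  haveI : I'.Normal := ⟨fun i hi g => hnorm' g i hi⟩
  obtain ⟨a, i₁, hi₁, h1⟩ := hgen φ'
  have e1 : (QuotientGroup.mk φ : G ⧸ I') = (QuotientGroup.mk φ' : G ⧸ I') ^ j := by
    rw [hφ, QuotientGroup.mk_mul, QuotientGroup.mk_pow, (QuotientGroup.eq_one_iff i').2 hi',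
      mul_one]
  have e2 : (QuotientGroup.mk φ' : G ⧸ I') = (QuotientGroup.mk φ' : G ⧸ I') ^ (j * a) := by
    conv_lhs => rw [h1]
    rw [QuotientGroup.mk_mul, QuotientGroup.mk_pow, (QuotientGroup.eq_one_iff i₁).2 (hII' hi₁),
      mul_one, e1, pow_mul]
  rcases Nat.eq_zero_or_pos (j * a) with h0 | hpos
  · rw [h0, pow_zero, QuotientGroup.eq_one_iff] at e2
    have := hT' 1 (by rwa [pow_one])
    exact hp.one_lt.ne' (Nat.dvd_one.1 this)
  · obtain ⟨c, hc⟩ : ∃ c, j * a = c + 1 := ⟨j * a - 1, by omega⟩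
    rw [hc, pow_succ] at e2
    have e3 : (QuotientGroup.mk φ' : G ⧸ I') ^ c = 1 := by
      have := mul_right_cancel (a := (QuotientGroup.mk φ' : G ⧸ I') ^ c)
        (b := (QuotientGroup.mk φ' : G ⧸ I')) (c := 1) (by rw [one_mul]; exact e2.symm)
      exact this
    rw [← QuotientGroup.mk_pow, QuotientGroup.eq_one_iff] at e3
    have h3 := hT' c e3
    have h4 : p ∣ c + 1 := by
      rw [← hc]
      exact Dvd.dvd.mul_right hpj a
    have h5 : p ∣ 1 := (Nat.dvd_add_right h3).1 h4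
    exact hp.one_lt.ne' (Nat.dvd_one.1 h5)

/-- **Abstract tame duality.** -/
theorem perf_abstract (p : ℕ) [Fact p.Prime] [CharP k p] (hp2 : p ≠ 2)
    (hT : TameData U I P φ τ₀ q m) (hq : (q : k) ≠ 0) (hm : (m : k) = 1)
    (ρ : Representation k G M) (ρ' : Representation k G M') (B : M →ₗ[k] M' →ₗ[k] k)
    (hB : ∀ g a b, B (ρ g a) (ρ' g b) = B a b)
    (hnd : ∀ l : M', l ≠ 0 → ∃ a : M, B a l ≠ 0)
    (hann : ∀ (ψ : G) (l : M'), (∀ a : M, ρ ψ a = a → B a l = 0) → ∃ b : M', l = ρ' ψ b - b)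
    (hρ : ∀ i ∈ I, ρ i = 1) (hρ' : ∀ i ∈ I, ρ' i = 1)
    {y : G → M'} (hy : IsCoc ρ' y) (hyU : ∀ g, ∀ u ∈ U, y (g * u) = y g)
    -- the unramified family
    {I' : Subgroup G} {φ' : G} (hII' : I ≤ I')
    (hnorm' : ∀ g : G, ∀ i ∈ I', g * i * g⁻¹ ∈ I')
    (hgen' : ∀ g : G, ∃ n : ℕ, ∃ i ∈ I', g = φ' ^ n * i)
    (hT' : ∀ c : ℕ, φ' ^ c ∈ I' → p ∣ c)
    (X₁ : M → G → M)
    (hX₁ : ∀ a, IsCoc ρ (X₁ a) ∧ (∀ i ∈ I', X₁ a i = 0) ∧ X₁ a φ' = a)
    (hf₁ : ∀ a, ∃ f : G → k, (∀ g, ∀ u ∈ U, f (g * u) = f g) ∧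
      ∀ g h, B (X₁ a g) (ρ' g (y h)) = f h - f (g * h) + f g)
    -- the ramified family
    (κ : G → k) (hκ : ∀ g h, κ (g * h) = κ g + κ h) (hκU : ∀ u ∈ U, κ u = 0)
    (hκram : ∃ i ∈ I, κ i ≠ 0)
    (hf₂ : ∀ a : M, (∀ g, ρ g a = a) → ∃ f : G → k, (∀ g, ∀ u ∈ U, f (g * u) = f g) ∧
      ∀ g h, B (κ g • a) (ρ' g (y h)) = f h - f (g * h) + f g) :
    ∃ b : M', ∀ g, y g = ρ' g b - b := by
  have hp : p.Prime := Fact.out
  have h2 : (2 : k) ≠ 0 := by
    intro h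
    have h' : ((2 : ℕ) : k) = 0 := by exact_mod_cast h
    rw [CharP.cast_eq_zero_iff k p] at h'
    exact hp2 ((Nat.prime_dvd_prime_iff_eq hp Nat.prime_two).1 h')
  -- Step 1: `y τ₀ = 0`
  have hyτ : y τ₀ = 0 := by
    by_contra hne
    obtain ⟨a, ha⟩ := hnd _ hne
    obtain ⟨hxc, hxI, hxφ⟩ := hX₁ a
    obtain ⟨f, hfU, hf⟩ := hf₁ a
    have hxU : ∀ g, ∀ u ∈ U, X₁ a (g * u) = X₁ a g := by
      intro g u hu
      rw [hxc g u, hxI u (hII' (hT.hPI (hT.hUP hu))), map_zero, zero_add]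
    have hsym := pairing_symm hT hq hm h2 ρ ρ' B hρ hρ' hxc hy hxU hyU hfU hf
    rw [hxI τ₀ (hII' hT.hτ), map_zero, LinearMap.zero_apply] at hsym
    -- invariance of `y τ₀`
    have hfix : ∀ g, ρ' g (y τ₀) = y τ₀ :=
      apply_eq_of_fix hT hρ' (hy.frob_fix hT hq hm hρ' hyU)
    have hBinv : ∀ g b, B (ρ g b) (y τ₀) = B b (y τ₀) := by
      intro g b
      conv_lhs => rw [← hfix g]
      exact hB g b _
    obtain ⟨j, i', hi', hφ⟩ := hgen' φ
    have hρI' : ∀ n : ℕ, B (X₁ a (φ' ^ n)) (y τ₀) = (n : k) * B a (y τ₀) := by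
      intro n
      induction n with
      | zero => simp [hxc.map_one]
      | succ n ih =>
        rw [pow_succ', hxc φ', map_add, LinearMap.add_apply, hBinv, ih, hxφ, Nat.cast_succ]
        ring
    have hval : B (X₁ a φ) (y τ₀) = (j : k) * B a (y τ₀) := by
      conv_lhs => rw [hφ]
      rw [hxc (φ' ^ j) i', hxI i' hi', map_zero, zero_add, hρI']
    rw [hval] at hsym
    have hj0 : (j : k) = 0 := (mul_eq_zero.1 hsym).resolve_right ha
    rw [CharP.cast_eq_zero_iff k p] at hj0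
    exact not_dvd_exponent hp hII' hnorm' hT.hgen hT' hi' hφ hj0
  -- Step 2: `y φ` is a coboundary value
  have hκP : ∀ a ∈ P, κ a = 0 := by
    intro a ha
    obtain ⟨e, he⟩ := hT.hP a ha
    have hpow : ∀ n : ℕ, κ (a ^ n) = (n : k) * κ a := by
      intro n
      induction n with
      | zero =>
        have h1 := hκ 1 1
        rw [mul_one] at h1
        have : κ 1 = 0 := by linear_combination (-1 : k) * h1
        simp [this]
      | succ n ih =>
        rw [pow_succ', hκ, ih, Nat.cast_succ]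
        ring
    have h1 := hpow (q ^ e)
    rw [hκU _ he] at h1
    have hne : ((q ^ e : ℕ) : k) ≠ 0 := by
      rw [Nat.cast_pow]
      exact pow_ne_zero _ hq
    exact (mul_eq_zero.1 h1.symm).resolve_left hne
  have hκτ : κ τ₀ ≠ 0 := by
    obtain ⟨i, hi, hne⟩ := hκram
    obtain ⟨n, a, ha, rfl⟩ := hT.hcyc i hi
    intro h0
    apply hne
    have hpow : ∀ n : ℕ, κ (τ₀ ^ n) = 0 := by
      intro n
      induction n with
      | zero =>
        have h1 := hκ 1 1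
        rw [mul_one] at h1
        have : κ 1 = 0 := by linear_combination (-1 : k) * h1
        simpa using this
      | succ n ih => rw [pow_succ', hκ, ih, h0, add_zero]
    rw [hκ, hpow, hκP a ha, add_zero]
  have hkill : ∀ a : M, ρ φ a = a → B a (y φ) = 0 := by
    intro a ha
    have hainv : ∀ g, ρ g a = a := apply_eq_of_fix hT hρ ha
    obtain ⟨f, hfU, hf⟩ := hf₂ a hainv
    have hxc : IsCoc ρ (fun g => κ g • a) := by
      intro g h
      show κ (g * h) • a = ρ g (κ h • a) + κ g • a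
      rw [hκ, map_smul, hainv g, add_smul, add_comm]
    have hxU : ∀ g, ∀ u ∈ U, (fun g => κ g • a) (g * u) = (fun g => κ g • a) g := by
      intro g u hu
      show κ (g * u) • a = κ g • a
      rw [hκ, hκU u hu, add_zero]
    have hsym := pairing_symm hT hq hm h2 ρ ρ' B hρ hρ' hxc hy hxU hyU hfU hf
    rw [hyτ, map_zero] at hsym
    have h3 : κ τ₀ * B a (y φ) = 0 := by
      have : B (κ τ₀ • a) (y φ) = κ τ₀ * B a (y φ) := by
        rw [map_smul, LinearMap.smul_apply, smul_eq_mul]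
      rw [← this]
      exact hsym.symm
    exact (mul_eq_zero.1 h3).resolve_left hκτ
  obtain ⟨b, hb⟩ := hann φ (y φ) hkill
  exact ⟨b, fun g => hy.eq_cob hT hq hρ' hyU hyτ hb g⟩

end main

end abs

end Fermat.Agent.S56.H9
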