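import Fermat.Agent.S56.GW.H9_PerfRoots

/-!
# S56, package GW-PERF: the Kummer character of `q ^ (1/p)` at `q ≡ 1 mod p` (helper9)

`kummerQ` is an additive character `G_q → ZMod p`, trivial on the elements fixing `π = q^(1/p)`,
and nontrivial on the inertia group at every level.
-/

set_option autoImplicit false
set_option linter.unusedSectionVars false
set_option linter.style.haveILetI false

namespace Fermat.Agent.S56.H9

open NumberField CategoryTheory groupCohomology ExtCitation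
open Fermat.Agent.Lib.LocalKummer

local notation "Qbar" => AlgebraicClosure ℚ

open Fermat.Agent.Lib.Minkowski in
attribute [local instance] qbar_isAlgebraic qbar_isAlgClosure qbar_isGalois qbar_normal

section kummer

variable {q : Nat.Primes} {p : ℕ} [NeZero p] {ζ π : Qbar}

lemma pi_ne_zero (hπ : π ^ p = ((q : ℕ) : Qbar)) : π ≠ 0 := by
  rintro rfl
  rw [zero_pow (NeZero.ne p)] at hπ
  have : ((q : ℕ) : Qbar) ≠ 0 := Nat.cast_ne_zero.2 q.2.ne_zero
  exact this hπ.symm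

lemma exists_kummerQ (hζ : IsPrimitiveRoot ζ p) (hπ : π ^ p = ((q : ℕ) : Qbar))
    (g : primeLocalGaloisGroup q) :
    ∃ a : ZMod p, primeLocalToGlobal q g π = zpowZ ζ a * π := by
  have h0 := pi_ne_zero hπ
  have h1 : (primeLocalToGlobal q g π / π) ^ p = 1 := by
    rw [div_pow, ← map_pow, hπ, map_natCast]
    exact div_self (Nat.cast_ne_zero.2 q.2.ne_zero)
  obtain ⟨a, ha⟩ := exists_zpowZ_eq hζ h1
  refine ⟨a, ?_⟩
  rw [ha]
  field_simp

/-- The Kummer character of `π`, `π ^ p = q`. -/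
noncomputable def kummerQ (hζ : IsPrimitiveRoot ζ p) (hπ : π ^ p = ((q : ℕ) : Qbar))
    (g : primeLocalGaloisGroup q) : ZMod p :=
  (exists_kummerQ hζ hπ g).choose

lemma kummerQ_spec (hζ : IsPrimitiveRoot ζ p) (hπ : π ^ p = ((q : ℕ) : Qbar))
    (g : primeLocalGaloisGroup q) :
    primeLocalToGlobal q g π = zpowZ ζ (kummerQ hζ hπ g) * π :=
  (exists_kummerQ hζ hπ g).choose_spec

lemma kummerQ_eq_zero_iff (hζ : IsPrimitiveRoot ζ p) (hπ : π ^ p = ((q : ℕ) : Qbar))
    (g : primeLocalGaloisGroup q) :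
    kummerQ hζ hπ g = 0 ↔ primeLocalToGlobal q g π = π := by
  have h0 := pi_ne_zero hπ
  constructor
  · intro h
    rw [kummerQ_spec hζ hπ g, h, zpowZ_zero, one_mul]
  · intro h
    have h1 := kummerQ_spec hζ hπ g
    rw [h] at h1
    have h2 : zpowZ ζ (kummerQ hζ hπ g) = 1 := by
      have h3 : zpowZ ζ (kummerQ hζ hπ g) * π = 1 * π := by rw [← h1, one_mul]
      exact mul_right_cancel₀ h0 h3
    exact (zpowZ_eq_one_iff hζ _).1 h2

lemma kummerQ_mul (hp : p.Prime) (hq1 : (q : ℕ) % p = 1) (hζ : IsPrimitiveRoot ζ p)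
    (hπ : π ^ p = ((q : ℕ) : Qbar)) (g h : primeLocalGaloisGroup q) :
    kummerQ hζ hπ (g * h) = kummerQ hζ hπ g + kummerQ hζ hπ h := by
  have h0 := pi_ne_zero hπ
  have hfix : ∀ (s : primeLocalGaloisGroup q) (a : ZMod p),
      primeLocalToGlobal q s (zpowZ ζ a) = zpowZ ζ a := by
    intro s a
    exact rq_fix_root hp hq1 s _ (zpowZ_pow ζ hζ.pow_eq_one a)
  have h1 : primeLocalToGlobal q (g * h) π =
      zpowZ ζ (kummerQ hζ hπ g + kummerQ hζ hπ h) * π := by
    rw [map_mul, AlgEquiv.mul_apply, kummerQ_spec hζ hπ h, map_mul, hfix, kummerQ_spec hζ hπ g,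
      zpowZ_add hζ.pow_eq_one]
    ring
  rw [kummerQ_spec hζ hπ (g * h)] at h1
  exact zpowZ_injective hζ (mul_right_cancel₀ h0 h1)

/-- The Kummer character is ramified at every level. -/
theorem kummerQ_ramified (hp : p.Prime) (hq1 : (q : ℕ) % p = 1) (hζ : IsPrimitiveRoot ζ p)
    (hπ : π ^ p = ((q : ℕ) : Qbar))
    (F : IntermediateField ℚ Qbar) [NumberField F] [Normal ℚ F] (hζF : ζ ∈ F) (hπF : π ∈ F) :
    ∃ i ∈ inertiaF q F, kummerQ hζ hπ i ≠ 0 := by
  classical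
  by_contra hcon
  push Not at hcon
  have h0 := pi_ne_zero hπ
  have hq0 : ((q : ℕ) : Qbar) ≠ 0 := Nat.cast_ne_zero.2 q.2.ne_zero
  let S : Set Qbar := {x | x ^ p = ((q : ℕ) : Qbar)}
  have hSfin : S.Finite := by
    have h1 : S ⊆ ((Polynomial.X ^ p - Polynomial.C ((q : ℕ) : Qbar) :
        Polynomial Qbar).roots.toFinset : Set Qbar) := by
      intro x hx
      have hx' : x ^ p = ((q : ℕ) : Qbar) := hx
      have hne : (Polynomial.X ^ p - Polynomial.C ((q : ℕ) : Qbar) : Polynomial Qbar) ≠ 0 :=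
        Polynomial.X_pow_sub_C_ne_zero hp.pos _
      simp only [Finset.mem_coe, Multiset.mem_toFinset]
      rw [Polynomial.mem_roots hne]
      simp [hx']
    exact (Finset.finite_toSet _).subset h1
  have hstab : ∀ σ : Qbar ≃ₐ[ℚ] Qbar, ∀ x ∈ S, σ x ∈ S := by
    intro σ x hx
    show (σ x) ^ p = ((q : ℕ) : Qbar)
    have hx' : x ^ p = ((q : ℕ) : Qbar) := hx
    rw [← map_pow, hx', map_natCast]
  have hform : ∀ x ∈ S, ∃ b : ZMod p, x = zpowZ ζ b * π := by
    intro x hx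
    have hx' : x ^ p = ((q : ℕ) : Qbar) := hx
    have h1 : (x / π) ^ p = 1 := by
      rw [div_pow, hx', hπ]
      exact div_self hq0
    obtain ⟨b, hb⟩ := exists_zpowZ_eq hζ h1
    refine ⟨b, ?_⟩
    rw [hb]
    field_simp
  have hfix : ∀ σ ∈ (primeLocalPlace q).inertiaSubgroupIn ℚ, ∀ x ∈ S, σ x = x := by
    intro σ hσ x hx
    obtain ⟨τ, hτI, hτ⟩ := exists_lift_inertia (q := q) F σ hσ
    obtain ⟨b, rfl⟩ := hform x hx
    have hmem : zpowZ ζ b * π ∈ F := F.mul_mem (show ζ ^ b.val ∈ F from pow_mem hζF _) hπF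
    rw [← hτ _ hmem, map_mul, rq_fix_root hp hq1 τ _ (zpowZ_pow ζ hζ.pow_eq_one b),
      (kummerQ_eq_zero_iff hζ hπ τ).1 (hcon τ hτI)]
  obtain ⟨j, hj⟩ := Fermat.Agent.Lib.UnramVal.valuation_eq_zpow_of_finite (q : ℕ) q.2
    (primeLocalPlace q) (primeLocalPlace_liesOver q) S hSfin hstab hfix π hπ h0
  set v := (primeLocalPlace q).valuation ((q : ℕ) : Qbar) with hv
  have hv1 : v < 1 := ((primeLocalPlace q).mem_nonunits_iff).1 (primeLocalPlace_liesOver q)
  have hv0 : 0 < v := by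
    rw [hv]
    exact zero_lt_iff.2 ((map_ne_zero _).2 hq0)
  have h1 : v ^ (j * (p : ℤ)) = v ^ (1 : ℤ) := by
    rw [zpow_mul, ← hj, zpow_natCast, ← map_pow, hπ, zpow_one]
  have h2 : j * (p : ℤ) = 1 := (zpow_right_strictAnti₀ hv0 hv1).injective h1
  have h3 : (p : ℤ) ∣ 1 := ⟨j, by rw [← h2]; ring⟩
  have h4 : p ∣ 1 := by exact_mod_cast h3
  exact hp.one_lt.ne' (Nat.dvd_one.1 h4)

end kummer

end Fermat.Agent.S56.H9
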