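import Fermat.Agent.S56.GW.Defs2
import Fermat.Agent.S56.GW.H9_PerfAbs
import Fermat.Agent.S56.H9_LocTW
import Fermat.Agent.S56.H47_Basic
import Fermat.Agent.Lib.LocalGlobalDense
import Fermat.Agent.Lib.UnramVal
import Fermat.Agent.Lib.LocalKummer.Resolvent

/-!
# S56, package GW-PERF: tame data of the local Galois group at a finite level (helper9)

* `tameData_ker`   : the tame data of a group mapping to a finite group of automorphisms of a
                     Dedekind domain, with the inertia group explicit, and the Frobenius property.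
* `inertiaF q F`   : the inertia subgroup of `G_q` at the level `F`.
* `tameData_level` : tame data of `G_q` at the level `F`.
-/

set_option autoImplicit false
set_option linter.unusedSectionVars false
set_option linter.style.haveILetI false

namespace Fermat.Agent.S56.H9

open NumberField CategoryTheory groupCohomology ExtCitation

local notation "Qbar" => AlgebraicClosure ℚ

section generic

theorem tameData_ker {G : Type*} [Group G]
    {B : Type*} [CommRing B] [IsDedekindDomain B] {Γ : Type*} [Group Γ] [Finite Γ]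
    [MulSemiringAction Γ B] [FaithfulSMul Γ B]
    (𝔓 : Ideal B) [𝔓.IsMaximal] (h𝔓 : 𝔓 ≠ ⊥) (q : ℕ) [Fact q.Prime] [CharP (B ⧸ 𝔓) q]
    [Finite (B ⧸ 𝔓)]
    (rt : G →* Γ) (hstab : ∀ g : G, ∀ x : B, rt g • x ∈ 𝔓 ↔ x ∈ 𝔓) :
    ∃ (P : Subgroup G) (φ τ₀ : G) (a : ℕ),
      TameData rt.ker ((𝔓.inertia Γ).comap rt) P φ τ₀ q (q ^ a) ∧
        ∀ x : B, rt φ • x - x ^ (q ^ a) ∈ 𝔓 := by
  classical
  have hq𝔓 : (q : B) ∈ 𝔓 := by
    rw [← Ideal.Quotient.eq_zero_iff_mem, map_natCast]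
    exact CharP.cast_eq_zero (B ⧸ 𝔓) q
  have h𝔓top : 𝔓 ≠ ⊤ := Ideal.IsPrime.ne_top inferInstance
  have hD' : ∀ σ ∈ rt.range, ∀ x, σ • x ∈ 𝔓 ↔ x ∈ 𝔓 := by
    rintro _ ⟨g, rfl⟩ x
    exact hstab g x
  obtain ⟨φ', hφ', a, hφa, hgen'⟩ := exists_frob_generator 𝔓 q rt.range hD'
  obtain ⟨φ, rfl⟩ := hφ'
  have hJ : rt.range ⊓ 𝔓.inertia Γ ≤ 𝔓.inertia Γ := inf_le_right
  obtain ⟨τ₀', hτ₀', hcyc'⟩ := exists_generator_mod_wild h𝔓 (rt.range ⊓ 𝔓.inertia Γ) hJ
  obtain ⟨⟨τ₀, rfl⟩, hτ₀I⟩ := hτ₀'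
  refine ⟨(wild 𝔓 Γ).comap rt, φ, τ₀, a, ⟨?_, ?_, hτ₀I, ?_, ?_, ?_, ?_, ?_⟩, hφa⟩
  · intro g hg
    rw [Subgroup.mem_comap, MonoidHom.mem_ker.1 hg]
    exact one_mem _
  · intro g hg
    exact wild_le_inertia 𝔓 hg
  · intro g i hi
    rw [Subgroup.mem_comap, map_mul, map_mul, map_inv]
    exact conj_mem_inertia (hstab g) hi
  · intro g
    obtain ⟨n, hn⟩ := hgen' (rt g) ⟨g, rfl⟩
    refine ⟨n, (φ ^ n)⁻¹ * g, ?_, ?_⟩
    · rw [Subgroup.mem_comap, map_mul, map_inv, map_pow]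
      exact hn
    · rw [mul_inv_cancel_left]
  · intro i hi
    obtain ⟨n, hn⟩ := hcyc' (rt i) ⟨⟨i, rfl⟩, hi⟩
    refine ⟨n, (τ₀ ^ n)⁻¹ * i, ?_, ?_⟩
    · rw [Subgroup.mem_comap, map_mul, map_inv, map_pow]
      exact hn
    · rw [mul_inv_cancel_left]
  · intro x hx
    have hσ : rt x ∈ wild 𝔓 Γ := hx
    have hord : orderOf (rt x) ≠ 0 := (orderOf_pos (rt x)).ne'
    obtain ⟨e, n, hn, hen⟩ := Nat.exists_eq_pow_mul_and_not_dvd hord q
      (Fact.out : q.Prime).ne_one
    refine ⟨e, ?_⟩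
    rw [MonoidHom.mem_ker, map_pow]
    have hcop : n.Coprime q :=
      (Nat.Coprime.symm ((Nat.Prime.coprime_iff_not_dvd (Fact.out : q.Prime)).2 hn))
    have hpow : ∀ y : B, ((rt x ^ q ^ e) ^ n) • y = y := by
      intro y
      rw [← pow_mul, ← hen, pow_orderOf_eq_one, one_smul]
    have htriv := smul_eq_of_mem_wild_of_coprime 𝔓 h𝔓top hq𝔓 (pow_mem hσ (q ^ e)) hcop hpow
    apply FaithfulSMul.eq_of_smul_eq_smul (α := B)
    intro y
    rw [htriv y, one_smul]
  · refine ⟨(τ₀ ^ q ^ a)⁻¹ * (φ * τ₀ * φ⁻¹), ?_, ?_⟩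
    · rw [Subgroup.mem_comap]
      simp only [map_mul, map_inv, map_pow]
      exact conj_mem_wild h𝔓 (hstab φ) hφa hτ₀I
    · rw [mul_inv_cancel_left]

end generic

section level

variable (q : Nat.Primes)

/-- The restriction map `G_q → Gal(F/ℚ)`. -/
noncomputable def rtF (F : IntermediateField ℚ Qbar) [Normal ℚ F] :
    primeLocalGaloisGroup q →* (F ≃ₐ[ℚ] F) :=
  (AlgEquiv.restrictNormalHom F).comp (primeLocalToGlobal q)

/-- The inertia subgroup of `G_q` at the level `F`. -/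
noncomputable def inertiaF (F : IntermediateField ℚ Qbar) [NumberField F] [Normal ℚ F] :
    Subgroup (primeLocalGaloisGroup q) :=
  ((primeAt (primeLocalPlace q) F).inertia (F ≃ₐ[ℚ] F)).comap (rtF q F)

variable {q}

lemma mem_inertiaF_iff {F : IntermediateField ℚ Qbar} [NumberField F] [Normal ℚ F]
    {g : primeLocalGaloisGroup q} :
    g ∈ inertiaF q F ↔ ∀ x : Qbar, x ∈ F → IsIntegral ℤ x →
      (primeLocalPlace q).valuation (primeLocalToGlobal q g x - x) < 1 := by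
  constructor
  · intro hg x hx hxi
    have hxi' : IsIntegral ℤ (⟨x, hx⟩ : F) := by
      refine (isIntegral_algebraMap_iff (B := Qbar) ?_).1 hxi
      exact (algebraMap F Qbar).injective
    obtain ⟨y, hy⟩ : ∃ y : 𝓞 F, intIncl F y = x := ⟨⟨⟨x, hx⟩, hxi'⟩, rfl⟩
    have h1 : rtF q F g • y - y ∈ primeAt (primeLocalPlace q) F := hg y
    rw [mem_primeAt, map_sub] at h1
    have h2 : intIncl F (rtF q F g • y) = primeLocalToGlobal q g (intIncl F y) :=
      intIncl_restrictNormal_smul F (primeLocalToGlobal q g) y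
    rw [h2, hy] at h1
    exact h1
  · intro h y
    show rtF q F g • y - y ∈ primeAt (primeLocalPlace q) F
    rw [mem_primeAt, map_sub]
    have h2 : intIncl F (rtF q F g • y) = primeLocalToGlobal q g (intIncl F y) :=
      intIncl_restrictNormal_smul F (primeLocalToGlobal q g) y
    rw [h2]
    exact h _ (y : F).2 (isIntegral_intIncl F y)

lemma inertiaF_anti {F F' : IntermediateField ℚ Qbar} [NumberField F] [Normal ℚ F]
    [NumberField F'] [Normal ℚ F'] (h : F ≤ F') : inertiaF q F' ≤ inertiaF q F := by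
  intro g hg
  rw [mem_inertiaF_iff] at hg ⊢
  exact fun x hx hxi => hg x (h hx) hxi

lemma levelSubgroup_eq_ker' (F : IntermediateField ℚ Qbar) [Normal ℚ F] :
    levelSubgroup q F = (rtF q F).ker :=
  levelSubgroup_eq_ker q F

/-- Global inertia elements restrict to the level inertia, via local lifts. -/
lemma exists_lift_inertia (F : IntermediateField ℚ Qbar) [NumberField F] [Normal ℚ F]
    (σ : Qbar ≃ₐ[ℚ] Qbar) (hσ : σ ∈ (primeLocalPlace q).inertiaSubgroupIn ℚ) :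
    ∃ τ ∈ inertiaF q F, ∀ x ∈ F, primeLocalToGlobal q τ x = σ x := by
  haveI : Fact (q : ℕ).Prime := ⟨q.2⟩
  have hdec : σ ∈ (padicPlace (q : ℕ)).decompositionSubgroup ℚ :=
    S05.H95.mem_decomposition_of_mem_inertia (primeLocalPlace q) hσ
  obtain ⟨τ, hτ⟩ : ∃ τ : primeLocalGaloisGroup q, ∀ x ∈ F, primeLocalToGlobal q τ x = σ x :=
    Fermat.Agent.Lib.LocalGlobalDense.exists_local_lift_field (q : ℕ) σ hdec F
  refine ⟨τ, ?_, hτ⟩
  rw [mem_inertiaF_iff]
  intro x hx hxi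
  have h1 : primeLocalToGlobal q τ x = σ x := hτ x hx
  rw [h1]
  have hxA : x ∈ primeLocalPlace q :=
    ((primeLocalPlace q).valuation_le_one_iff x).1
      (Fermat.Agent.Lib.FrobExists.valuation_le_one_of_isIntegral _ x hxi)
  exact ((primeLocalPlace q).mem_nonunits_iff).1
    (S05.H95.sub_mem_nonunits_of_mem_inertia (primeLocalPlace q) hσ hxA)

/-- An unramified representation, trivial on `Gal(ℚ̄/F)`, is trivial on the inertia at the
level `F`. -/
lemma rho_eq_one_of_mem_inertiaF {k : Type} [Field k] (M : Rep k GQ)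
    (hur : IsUnramifiedRepAt M (q : ℕ))
    (F : IntermediateField ℚ Qbar) [NumberField F] [Normal ℚ F]
    (hF : ∀ s ∈ F.fixingSubgroup, M.ρ s = 1) {g : primeLocalGaloisGroup q}
    (hg : g ∈ inertiaF q F) : M.ρ (primeLocalToGlobal q g) = 1 := by
  have h : ∀ x : Qbar, x ∈ F → IsIntegral ℤ x →
      (primeLocalToGlobal q g) x - x ∈ (primeLocalPlace q).nonunits := by
    intro x hx hxi
    exact (ValuationSubring.mem_nonunits_iff _).2 (mem_inertiaF_iff.1 hg x hx hxi)
  obtain ⟨σ, hσ, hσF⟩ := Fermat.Agent.Lib.InertiaLift.exists_mem_inertiaSubgroupIn_eqOn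
    (q : ℕ) q.2 (primeLocalPlace q) (primeLocalPlace_liesOver q) F (primeLocalToGlobal q g) h
  have h2 : σ⁻¹ * primeLocalToGlobal q g ∈ F.fixingSubgroup := by
    rw [IntermediateField.mem_fixingSubgroup_iff]
    intro x hx
    show σ⁻¹ (primeLocalToGlobal q g x) = x
    rw [← hσF x hx]
    exact σ.symm_apply_apply x
  have h3 := hF _ h2
  have h4 := hur _ (primeLocalPlace_liesOver q) σ hσ
  have h5 : M.ρ (primeLocalToGlobal q g) = M.ρ σ * M.ρ (σ⁻¹ * primeLocalToGlobal q g) := by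
    rw [← map_mul, mul_inv_cancel_left]
  rw [h5, h3, h4, one_mul]

/-- Tame data of `G_q` at the level `F`. -/
theorem tameData_level (F : IntermediateField ℚ Qbar) [NumberField F] [Normal ℚ F] :
    ∃ (P : Subgroup (primeLocalGaloisGroup q)) (φ τ₀ : primeLocalGaloisGroup q) (a : ℕ),
      TameData (levelSubgroup q F) (inertiaF q F) P φ τ₀ (q : ℕ) ((q : ℕ) ^ a) ∧
        ∀ x : Qbar, x ∈ F → IsIntegral ℤ x →
          (primeLocalPlace q).valuation (primeLocalToGlobal q φ x - x ^ ((q : ℕ) ^ a)) < 1 := by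
  haveI : Fact (q : ℕ).Prime := ⟨q.2⟩
  have hA : ((q : ℕ) : Qbar) ∈ (primeLocalPlace q).nonunits := primeLocalPlace_liesOver q
  have hq0 : (q : ℕ) ≠ 0 := q.2.ne_zero
  haveI : (primeAt (primeLocalPlace q) F).IsMaximal := primeAt_isMaximal _ _ hq0 hA
  haveI : Finite (𝓞 F ⧸ primeAt (primeLocalPlace q) F) := finite_quotient_primeAt _ _ hq0 hA
  haveI : CharP (𝓞 F ⧸ primeAt (primeLocalPlace q) F) (q : ℕ) :=
    charP_quotient_primeAt _ _ q.2 hA
  have hstab : ∀ g : primeLocalGaloisGroup q, ∀ x : 𝓞 F,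
      rtF q F g • x ∈ primeAt (primeLocalPlace q) F ↔ x ∈ primeAt (primeLocalPlace q) F := by
    intro g x
    rw [mem_primeAt, mem_primeAt]
    have h2 : intIncl F (rtF q F g • x) = primeLocalToGlobal q g (intIncl F x) :=
      intIncl_restrictNormal_smul F (primeLocalToGlobal q g) x
    rw [h2]
    exact Fermat.Agent.Lib.InertiaBridge.valuation_map_lt_one_iff _ _
      (primeLocalToGlobal_mem_decomposition q g) _
  obtain ⟨P, φ, τ₀, a, hT, hfrob⟩ := tameData_ker (primeAt (primeLocalPlace q) F)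
    (primeAt_ne_bot _ _ hq0 hA) (q : ℕ) (rtF q F) hstab
  refine ⟨P, φ, τ₀, a, ?_, ?_⟩
  · rw [levelSubgroup_eq_ker']
    exact hT
  · intro x hx hxi
    have hxi' : IsIntegral ℤ (⟨x, hx⟩ : F) := by
      refine (isIntegral_algebraMap_iff (B := Qbar) ?_).1 hxi
      exact (algebraMap F Qbar).injective
    obtain ⟨y, hy⟩ : ∃ y : 𝓞 F, intIncl F y = x := ⟨⟨⟨x, hx⟩, hxi'⟩, rfl⟩
    have h1 := hfrob y
    rw [mem_primeAt, map_sub, map_pow] at h1
    have h2 : intIncl F (rtF q F φ • y) = primeLocalToGlobal q φ (intIncl F y) :=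
      intIncl_restrictNormal_smul F (primeLocalToGlobal q φ) y
    rw [h2, hy] at h1
    exact h1

end level

end Fermat.Agent.S56.H9
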